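import Fermat.Agent.S36.LG.Ring

set_option autoImplicit false
set_option linter.unusedSectionVars false

/-!
# S36 / LG / Sat : local saturation, principal centres

* `VertFam.sat_loc` : `ϖ^j y ∈ O_n` and `y ∈ V k` for the components `V k` THROUGH `n` imply `y ∈ O_n`.
* `VertFam.exists_centered` : every closed point lies on a component.
* `prinC_of_genUnit` (K2) and its instances `prinC_unif`, `prinC_of_pow`.
-/

noncomputable section

namespace Fermat.Agent.S36.LG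

open Polynomial IntermediateField Fermat.Agent.S18 Fermat.Agent.S34

variable {R K F : Type} [CommRing R] [IsDomain R] [IsDiscreteValuationRing R] [Field K] [CharZero K]
  [Algebra R K] [IsFractionRing R K] [Field F] [Algebra K F] {ϖ : R} {t : F} {κ : Type}
  {V : κ → ValuationSubring F}

theorem rE_unif_ne_zero (hϖ : Irreducible ϖ) : rE R K F ϖ ≠ 0 := by
  intro h
  have h1 : algebraMap K F (algebraMap R K ϖ) = 0 := h
  rw [map_eq_zero_iff _ (algebraMap K F).injective,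
    map_eq_zero_iff _ (IsFractionRing.injective R K)] at h1
  exact hϖ.ne_zero h1

theorem VertFam.mem_of_mem_CInt (hϖ : Irreducible ϖ) (hV : VertFam (K := K) ϖ t V) {y : F}
    (hy : y ∈ CInt R K t) (k : κ) : y ∈ V k :=
  (hV.inO_iff y).1 (InO.of_mem_CInt hϖ hy) k

theorem VertFam.unif_mem (hV : VertFam (K := K) ϖ t V) (k : κ) : rE R K F ϖ ∈ V k :=
  mem_of_mem_nonunits (V k) (hV.mem k)

/-- the other chart. -/
theorem VertFam.inv (hϖ : Irreducible ϖ) (hV : VertFam (K := K) ϖ t V) :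
    VertFam (K := K) ϖ t⁻¹ V where
  trans := glue_transcendental_inv hV.trans
  fin := by
    have h : K⟮t⁻¹⟯ = K⟮t⟯ := by
      apply le_antisymm
      · rw [adjoin_simple_le_iff]; exact inv_mem (mem_adjoin_simple_self K t)
      · rw [adjoin_simple_le_iff]
        have := inv_mem (mem_adjoin_simple_self K t⁻¹)
        rwa [inv_inv] at this
    rw [h]; exact hV.fin
  inO_iff y := by
    have ht0 : t ≠ 0 := by
      rintro rfl
      exact hV.trans isAlgebraic_zero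
    rw [InO_inv_iff hϖ ht0]
    exact hV.inO_iff y
  mem := hV.mem
  ram := hV.ram

/-- global saturation. -/
theorem VertFam.sat (hϖ : Irreducible ϖ) (hV : VertFam (K := K) ϖ t V) {y : F} (j : ℕ)
    (h : rE R K F ϖ ^ j * y ∈ CInt R K t) (hy : ∀ k, y ∈ V k) : y ∈ CInt R K t := by
  induction j with
  | zero => simpa using h
  | succ j ih =>
    apply ih
    refine mem_CInt_of_mul_of_InO hV.trans hϖ ?_ ((hV.inO_iff _).2 fun k =>
      mul_mem (pow_mem (hV.unif_mem k) j) (hy k))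
    have e : rE R K F ϖ * (rE R K F ϖ ^ j * y) = rE R K F ϖ ^ (j + 1) * y := by ring
    rw [e]; exact h

/-- a power of an element of `𝔪_{V k}` is divisible by `ϖ ^ j`. -/
theorem VertFam.exists_pow (hϖ : Irreducible ϖ) (hV : VertFam (K := K) ϖ t V) (k : κ) {z : F}
    (hz : z ∈ (V k).nonunits) (j : ℕ) : ∃ N : ℕ, (rE R K F ϖ ^ j)⁻¹ * z ^ N ∈ V k := by
  obtain ⟨e, -, h⟩ := hV.ram k
  refine ⟨e * j, ?_⟩
  have e1 : (rE R K F ϖ ^ j)⁻¹ * z ^ (e * j) = ((rE R K F ϖ)⁻¹ * z ^ e) ^ j := by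
    rw [mul_pow, inv_pow, pow_mul]
  rw [e1]
  exact pow_mem (h z hz) j

section
variable [Finite κ]

/-- **local saturation**. -/
theorem VertFam.sat_loc (hϖ : Irreducible ϖ) (hV : VertFam (K := K) ϖ t V)
    {n : Ideal (CInt R K t)} [hn : n.IsPrime] {y : F} (j : ℕ) (h : InLoc n (rE R K F ϖ ^ j * y))
    (hy : ∀ k, Centered (V k) n → y ∈ V k) : InLoc n y := by
  classical
  have := Fintype.ofFinite κ
  have hϖ0 := rE_unif_ne_zero (K := K) (F := F) hϖ
  obtain ⟨d, hd, h1⟩ := h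
  have key : ∀ k, ∃ a : CInt R K t, a ∉ n ∧ (a : F) * ((d : F) * y) ∈ V k := by
    intro k
    by_cases hc : Centered (V k) n
    · exact ⟨1, loc_one_notMem n, by
        rw [Subring.coe_one, one_mul]
        exact mul_mem (hV.mem_of_mem_CInt hϖ d.2 k) (hy k hc)⟩
    · unfold Centered at hc
      push Not at hc
      obtain ⟨c, hc1, hc2⟩ := hc
      obtain ⟨N, hN⟩ := hV.exists_pow hϖ k hc1 j
      refine ⟨c ^ N, fun h => hc2 (hn.mem_of_pow_mem N h), ?_⟩
      have e : ((c ^ N : CInt R K t) : F) * ((d : F) * y) =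
          ((rE R K F ϖ ^ j)⁻¹ * (c : F) ^ N) * ((d : F) * (rE R K F ϖ ^ j * y)) := by
        rw [Subring.coe_pow]
        field_simp
      rw [e]
      exact mul_mem hN (hV.mem_of_mem_CInt hϖ h1 k)
  choose a ha1 ha2 using key
  refine ⟨(∏ k, a k) * d, loc_mul_notMem ?_ hd, ?_⟩
  · intro h
    obtain ⟨k, -, hk⟩ := (hn.prod_mem_iff).1 h
    exact ha1 k hk
  · rw [Subring.coe_mul, mul_assoc]
    refine hV.sat hϖ j ?_ fun k => ?_
    · have e : rE R K F ϖ ^ j * (((∏ k, a k : CInt R K t) : F) * ((d : F) * y)) =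
          ((∏ k, a k : CInt R K t) : F) * ((d : F) * (rE R K F ϖ ^ j * y)) := by ring
      rw [e]
      exact mul_mem (∏ k, a k : CInt R K t).2 h1
    · rw [← Finset.mul_prod_erase Finset.univ a (Finset.mem_univ k), Subring.coe_mul]
      have e : (a k : F) * ((∏ x ∈ Finset.univ.erase k, a x : CInt R K t) : F) * ((d : F) * y) =
          ((∏ x ∈ Finset.univ.erase k, a x : CInt R K t) : F) * ((a k : F) * ((d : F) * y)) := by
        ring
      rw [e]
      exact mul_mem (hV.mem_of_mem_CInt hϖ (∏ x ∈ Finset.univ.erase k, a x : CInt R K t).2 k)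
        (ha2 k)

/-- every closed point lies on a component. -/
theorem VertFam.exists_centered (hϖ : Irreducible ϖ) (hV : VertFam (K := K) ϖ t V)
    {n : Ideal (CInt R K t)} (hn : IsClosedPt ϖ n) : ∃ k, Centered (V k) n := by
  by_contra hcon
  push Not at hcon
  have hp := hn.max.isPrime
  have hϖ0 := rE_unif_ne_zero (K := K) (F := F) hϖ
  have h1 : InLoc n ((rE R K F ϖ)⁻¹) := by
    refine hV.sat_loc hϖ 1 ?_ fun k hk => absurd hk (hcon k)
    rw [pow_one, mul_inv_cancel₀ hϖ0]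
    exact InLoc.of_mem n (one_mem _)
  have h2 : InMax n (rE R K F ϖ) := ⟨1, loc_one_notMem n, unifC t ϖ, hn.mem, by
    rw [Subring.coe_one, one_mul]; rfl⟩
  have h3 := InMax.mul_left h1 h2
  rw [inv_mul_cancel₀ hϖ0] at h3
  exact not_inMax_one h3

/-- a unit of `O_n[1/ϖ]` which is a unit of all components through `n` is a unit of `O_n`. -/
theorem VertFam.locUnit_of_genUnit (hϖ : Irreducible ϖ) (hV : VertFam (K := K) ϖ t V)
    {n : Ideal (CInt R K t)} [n.IsPrime] {y : F} (h : GenUnit ϖ n y)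
    (hy : ∀ k, Centered (V k) n → y ∈ V k ∧ y⁻¹ ∈ V k) : LocUnit n y := by
  obtain ⟨hy0, k, h1, h2⟩ := h
  exact ⟨hy0, hV.sat_loc hϖ k h1 fun k hk => (hy k hk).1, hV.sat_loc hϖ k h2 fun k hk => (hy k hk).2⟩

/-- **(K2)**: a unit `g` of `O_n[1/ϖ]` which is a uniformiser of `V k₀` and a unit of the other components through `n`
generates the centre of `V k₀`. -/
theorem prinC_of_genUnit (hϖ : Irreducible ϖ) (hV : VertFam (K := K) ϖ t V)
    {n : Ideal (CInt R K t)} [n.IsPrime] {g : F} (hg : GenUnit ϖ n g) (k₀ : κ)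
    (hg1 : g ∈ (V k₀).nonunits) (hg2 : ∀ z ∈ (V k₀).nonunits, g⁻¹ * z ∈ V k₀)
    (hg3 : ∀ k, k ≠ k₀ → Centered (V k) n → g ∈ V k ∧ g⁻¹ ∈ V k) : PrinC n (V k₀) g := by
  obtain ⟨hg0, j, h1, h2⟩ := hg
  refine ⟨hg0, hV.sat_loc hϖ j h1 fun k hk => ?_, hg1, fun z hz hz' => ?_⟩
  · by_cases hk0 : k = k₀
    · subst hk0; exact mem_of_mem_nonunits _ hg1
    · exact (hg3 k hk0 hk).1
  · refine hV.sat_loc hϖ j ?_ fun k hk => ?_
    · have e : rE R K F ϖ ^ j * (g⁻¹ * z) = (rE R K F ϖ ^ j * g⁻¹) * z := by ring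
      rw [e]; exact h2.mul hz
    · by_cases hk0 : k = k₀
      · subst hk0; exact hg2 z hz'
      · exact mul_mem (hg3 k hk0 hk).2
          (Centered.mem_of_inLoc (fun y hy => hV.mem_of_mem_CInt hϖ hy k) hk hz)

theorem genUnit_unif (hϖ : Irreducible ϖ) (n : Ideal (CInt R K t)) [n.IsPrime] :
    GenUnit ϖ n (rE R K F ϖ) := by
  have hϖ0 := rE_unif_ne_zero (K := K) (F := F) hϖ
  refine ⟨hϖ0, 1, ?_, ?_⟩
  · exact InLoc.of_mem n (mul_mem (pow_mem (rE_mem_CInt t ϖ) 1) (rE_mem_CInt t ϖ))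
  · rw [pow_one, mul_inv_cancel₀ hϖ0]
    exact InLoc.of_mem n (one_mem _)

/-- only one component through `n`, of multiplicity one: `G = ϖ`. -/
theorem prinC_unif (hϖ : Irreducible ϖ) (hV : VertFam (K := K) ϖ t V)
    {n : Ideal (CInt R K t)} [n.IsPrime] (k₀ : κ) (honly : ∀ k, Centered (V k) n → k = k₀)
    (hram : ∀ z ∈ (V k₀).nonunits, (rE R K F ϖ)⁻¹ * z ∈ V k₀) :
    PrinC n (V k₀) (rE R K F ϖ) :=
  prinC_of_genUnit hϖ hV (genUnit_unif hϖ n) k₀ (hV.mem k₀) hram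
    fun k hk hc => absurd (honly k hc) hk

/-- only one component through `n`, of multiplicity `e`, and `Y ∈ O_n ∩ 𝔪_V` with `Y ^ e / ϖ` a unit of `O_n`: `G = Y`. -/
theorem prinC_of_pow (hϖ : Irreducible ϖ) (hV : VertFam (K := K) ϖ t V)
    {n : Ideal (CInt R K t)} [n.IsPrime] (k₀ : κ) (hc₀ : Centered (V k₀) n)
    (honly : ∀ k, Centered (V k) n → k = k₀)
    {e : ℕ} (he : 0 < e) (hram : ∀ z ∈ (V k₀).nonunits, (rE R K F ϖ)⁻¹ * z ^ e ∈ V k₀)
    {Y : F} (hY : InLoc n Y) (hY' : Y ∈ (V k₀).nonunits)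
    (hU : LocUnit n ((rE R K F ϖ)⁻¹ * Y ^ e)) : PrinC n (V k₀) Y := by
  have hϖ0 := rE_unif_ne_zero (K := K) (F := F) hϖ
  obtain ⟨hU0, hU1, hU2⟩ := hU
  have hY0 : Y ≠ 0 := by
    rintro rfl
    rw [zero_pow he.ne', mul_zero] at hU0
    exact hU0 rfl
  have hin : ∀ {z : F}, InLoc n z → z ∈ V k₀ := fun hz =>
    Centered.mem_of_inLoc (fun y hy => hV.mem_of_mem_CInt hϖ hy k₀) hc₀ hz
  refine prinC_of_genUnit hϖ hV ⟨hY0, 1, ?_, ?_⟩ k₀ hY' (fun z hz => ?_)
    fun k hk hc => absurd (honly k hc) hk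
  · exact (InLoc.of_mem n (pow_mem (rE_mem_CInt t ϖ) 1)).mul hY
  · have e1 : rE R K F ϖ ^ 1 * Y⁻¹ = ((rE R K F ϖ)⁻¹ * Y ^ e)⁻¹ * Y ^ (e - 1) := by
      obtain ⟨e', rfl⟩ : ∃ e', e = e' + 1 := ⟨e - 1, by omega⟩
      rw [Nat.add_sub_cancel]
      field_simp
      ring
    rw [e1]
    exact hU2.mul (hY.pow _)
  · apply mem_of_pow_mem (V k₀) he.ne'
    have e1 : (Y⁻¹ * z) ^ e = ((rE R K F ϖ)⁻¹ * Y ^ e)⁻¹ * ((rE R K F ϖ)⁻¹ * z ^ e) := by
      rw [mul_pow, inv_pow]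
      field_simp
    rw [e1]
    exact mul_mem (hin hU2) (hram z hz)

end

end Fermat.Agent.S36.LG
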