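import Fermat.Agent.S36.LG.E1Abs
import Fermat.Agent.S34.BR.Fam
import Fermat.Agent.S34.BR.IntB
import Fermat.Agent.S36.Descent.K0

set_option autoImplicit false

/-!
# S36 / LG / E1 : the places of `FN N` restricted to `F_K` are normalised, for EVERY subfield `ι : K → ℚ̄`   (task LG-E1)

## Sketch
Apply `exists_val_eq_one` with `L = Kb`, `E = FN N`, `F = modularFunctionFieldFullC K N`, `j = toFN ι N`, `Algebra K Kb := ι.toAlgebra`
(`CharZero K := ι.charZero`-style as in `S34.IntB.isIntegralElem`; `Algebra.IsAlgebraic K Kb`: every `c : Kb` is algebraic over `ℚ`, cf. `S34.IntB.isIntegralElem ι c`),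
`w := fun (v : Place Kb (FN N)) z => v.ord z`.
* `hj` = `S34.toFN_algebraMap`.
* `ValFam Kb w`: copy of the proof of `S34.valFam_wP` (`S34/BR/Fam.lean`) without `toFN`.
* `RatAt Kb w v`: `S24.exists_const_sub (S24.isFF1_FN N) v` and `S24.exists_ord_eq_one` (see the proof of `S34.ratAt_of_fixed`, `S34/BR/Rat.lean`).
* `hspan`: `g : FN N`; `Descent.K0.mem_fullC N g`, `Descent.Rat.mem_full_iff`, `Subfield.mem_closure_iff` give `g.1 = u / w` with `u w ∈ Subring.closure (gens Kb (divisorExpansionsC Kb N))`;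
  `divisorExpansionsC Kb N ⊆ coeffMap ι '' divisorExpansionsC K N` (last lines of `Descent.Rat.mem_of_coeffMap_mem`), so `Descent.Rat.isSpan_of_mem ι` gives
  `u = ∑ s, C (e s) * coeffMap ι (a s)`, `a s ∈ Subring.closure (gens K (divisorExpansionsC K N)) ⊆ modularFunctionFieldFullC K N` (`mem_full_iff`, `Subfield.subring_closure_le`).
  So `y₁ := ∑ s, algebraMap Kb (FN N) (e s) * toFN ι N ⟨a s, _⟩ ∈ Algebra.adjoin Kb (range (toFN ι N))` has underlying series `u`; the same for `w`  (compare underlying series with `Subtype.ext`;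
  `w = 0` is harmless: then `g = 0`, take `y₁ = 0`, `y₂ = 1`).
-/

noncomputable section

namespace Fermat.Agent.S36.LG

open AlgebraicCurve ModularCurve
open Fermat.Agent.S24 (Kb FN)
open Fermat.Agent.S18 (toFN)
open Fermat.Agent.S34

theorem E1.exists_adjoin {K : Type} [Field K] (ι : K →+* Kb) (N : ℕ) [NeZero N]
    (u : LaurentSeries Kb)
    (hu : u ∈ Subring.closure (Descent.Rat.gens Kb (divisorExpansionsC Kb N))) :
    ∃ y : FN N, y ∈ Algebra.adjoin Kb (Set.range (toFN ι N)) ∧ y.1 = u := by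
  have hsub : divisorExpansionsC Kb N ⊆ coeffMap ι '' divisorExpansionsC K N := by
    rintro y ⟨d, hd, hdN, rfl⟩
    exact ⟨qExpand K d (jqModC K), ⟨d, hd, hdN, rfl⟩, by rw [coeffMap_qExpand, coeffMap_jqModC]⟩
  have hu' : u ∈ Subring.closure (Descent.Rat.gens Kb (coeffMap ι '' divisorExpansionsC K N)) :=
    Subring.closure_mono (Set.union_subset_union_right _ hsub) hu
  obtain ⟨I, _, e, a, ha, rfl⟩ := Descent.Rat.isSpan_of_mem ι _ u hu'
  have ha' : ∀ s, a s ∈ modularFunctionFieldFullC K N := fun s => by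
    rw [Descent.Rat.mem_full_iff]
    exact Subfield.subring_closure_le _ (ha s)
  refine ⟨∑ s, algebraMap Kb (FN N) (e s) * toFN ι N ⟨a s, ha' s⟩, ?_, ?_⟩
  · exact sum_mem fun s _ => mul_mem (Subalgebra.algebraMap_mem _ _)
      (Algebra.subset_adjoin ⟨_, rfl⟩)
  · rw [AddSubmonoidClass.coe_finsetSum]
    refine Finset.sum_congr rfl fun s _ => ?_
    rw [MulMemClass.coe_mul, Fermat.Agent.S18.toFN_coe]
    congr 1
    show algebraMap Kb (LaurentSeries Kb) (e s) = _
    rw [algebraMap_laurentSeries_eq_single, HahnSeries.C_apply]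

theorem E1.span {K : Type} [Field K] (ι : K →+* Kb) (N : ℕ) [NeZero N] (z : FN N) :
    ∃ y₁ y₂ : FN N, y₁ ∈ Algebra.adjoin Kb (Set.range (toFN ι N)) ∧
      y₂ ∈ Algebra.adjoin Kb (Set.range (toFN ι N)) ∧ y₂ ≠ 0 ∧ z = y₁ / y₂ := by
  have h1 := Descent.K0.mem_fullC N z
  rw [Descent.Rat.mem_full_iff] at h1
  obtain ⟨u, hu, w, hw, hx⟩ := Subfield.mem_closure_iff.1 h1
  by_cases hw0 : w = 0
  · refine ⟨0, 1, zero_mem _, one_mem _, one_ne_zero, ?_⟩
    rw [hw0, div_zero] at hx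
    rw [zero_div]
    exact Subtype.ext hx.symm
  · obtain ⟨y₁, hy₁, e₁⟩ := E1.exists_adjoin ι N u hu
    obtain ⟨y₂, hy₂, e₂⟩ := E1.exists_adjoin ι N w hw
    have hy20 : y₂ ≠ 0 := by
      rintro rfl
      exact hw0 e₂.symm
    refine ⟨y₁, y₂, hy₁, hy₂, hy20, ?_⟩
    rw [eq_div_iff hy20]
    apply Subtype.ext
    rw [MulMemClass.coe_mul, e₁, e₂, ← hx, div_mul_cancel₀ _ hw0]

theorem E1.valFam (N : ℕ) [NeZero N] :
    ValFam Kb (fun (v : Place Kb (FN N)) (z : FN N) => v.ord z) := by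
  refine ⟨?_, ?_, ?_, ?_⟩
  · intro v a b ha hb
    exact Place.ord_mul v ha hb
  · intro v a b _ _ hab
    exact Fermat.Agent.S24.min_le_ord_add v hab
  · intro v c _
    exact Fermat.Agent.S24.ord_algebraMap v c
  · intro z _
    have h1 := Fermat.Agent.NV.Canon.finite_ord_neg (Fermat.Agent.S24.isFF1_FN N) z
    have h2 := Fermat.Agent.NV.Canon.finite_ord_neg (Fermat.Agent.S24.isFF1_FN N) z⁻¹
    refine (h1.union h2).subset ?_
    intro v hv
    rw [Set.mem_ofPred_eq] at hv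
    rw [Set.mem_union, Set.mem_ofPred_eq, Set.mem_ofPred_eq, Place.ord_inv]
    omega

theorem E1.ratAt (N : ℕ) [NeZero N] (v : Place Kb (FN N)) :
    RatAt Kb (fun (v : Place Kb (FN N)) (z : FN N) => v.ord z) v := by
  refine ⟨fun z _ hz => Fermat.Agent.S24.exists_const_sub (Fermat.Agent.S24.isFF1_FN N) v hz, ?_⟩
  obtain ⟨t, ht, ht0, -⟩ := Fermat.Agent.S24.exists_ord_eq_one v
  exact ⟨t, ht0, ht⟩

theorem exists_wP_eq_one {K : Type} [Field K] (ι : K →+* Kb) (N : ℕ) [NeZero N]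
    (v : Place Kb (FN N)) : ∃ u : modularFunctionFieldFullC K N, u ≠ 0 ∧ wP ι N v u = 1 := by
  have _ : CharZero K := ι.charZero
  let _ : Algebra K Kb := ι.toAlgebra
  have : Algebra.IsAlgebraic K Kb :=
    ⟨fun c => (show IsIntegral K c from IntB.isIntegralElem ι c).isAlgebraic⟩
  exact exists_val_eq_one (toFN ι N) (toFN_algebraMap ι N) (E1.span ι N) (E1.valFam N) v
    (E1.ratAt N v)

end Fermat.Agent.S36.LG
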