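import Fermat.Agent.S36.LG.UFD
import Fermat.Agent.S34.DA1

set_option autoImplicit false
set_option linter.unusedSectionVars false

/-!
# S36 / LG / Kummer : the local presentation `f = ε h ^ m` at a `Reg2` point

`exists_eq_unit_mul_pow` : `n` a closed point with `Reg2 n`; `V k` the components, `w i` the horizontal valuations (normalised on `F`);
`f ≠ 0` with `m ∣ w i f` for the `i` through `n` and `f` a unit of the components through `n`.  Then `f = ε h ^ m`, `ε` a unit of `O_n`.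

Proof.  `O_n` is factorial.  Let `g` be a prime element, `f b = g ^ e a` with `g ∤ a, b`.
* `g ∣ ϖ`: by local saturation `g ∈ 𝔪_{V k}` for a component through `n`; the centre of `V k` in `O_n` is a prime `≠ 𝔪_n` containing `g`, so it is `(g)`;
  `a, b, f` are units of `V k`, hence `e = 0`.
* `g ∤ ϖ`: by `S34.exists_inLoc_of_nonneg` there is `i` through `n` with `w i g > 0`; the centre of `w i` is `(g)`; `w i z ∈ (w i g) ℤ` for all `z`, so `w i g = 1`
  and `e = w i f`.
-/

noncomputable section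

namespace Fermat.Agent.S36.LG

open Polynomial IntermediateField Fermat.Agent.S18 Fermat.Agent.S34

variable {R K F : Type} [CommRing R] [IsDomain R] [IsDiscreteValuationRing R] [Field K] [CharZero K]
  [Algebra R K] [IsFractionRing R K] [Field F] [Algebra K F] {ϖ : R} {t : F} {κ : Type}
  {V : κ → ValuationSubring F} {ι : Type} {w : ι → F → ℤ}

theorem mem_valO_iff (hw : ValFam K w) (i : ι) (z : F) : z ∈ hw.valO i ↔ z = 0 ∨ 0 ≤ w i z :=
  Iff.rfl

theorem mem_nonunits_valO_iff (hw : ValFam K w) (i : ι) (z : F) :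
    z ∈ (hw.valO i).nonunits ↔ z = 0 ∨ 0 < w i z := by
  constructor
  · intro h
    by_cases hz : z = 0
    · exact Or.inl hz
    right
    by_contra hcon
    have h1 : z⁻¹ ∈ hw.valO i := Or.inr (by rw [hw.map_inv i hz]; omega)
    have h2 := mul_mem_nonunits (hw.valO i) h1 h
    rw [inv_mul_cancel₀ hz] at h2
    exact one_notMem_nonunits _ h2
  · rintro (rfl | h)
    · exact zero_mem_nonunits _
    by_contra hcon
    have hz : z ≠ 0 := fun h0 => hcon (h0 ▸ zero_mem_nonunits _)
    rcases inv_mem_of_notMem_nonunits (hw.valO i) (Or.inr h.le) hcon with h1 | h1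
    · exact hz (inv_eq_zero.1 h1)
    · rw [hw.map_inv i hz] at h1; omega

/-- the local ring at `n` is contained in the valuation ring of a horizontal valuation through `n`. -/
theorem Thru.mem_valO (hw : ValFam K w) {i : ι} {n : Ideal (CInt R K t)} (hi : Thru w i n) {z : F}
    (hz : InLoc n z) : z ∈ hw.valO i := by
  obtain ⟨d, hd, h⟩ := hz
  by_cases hz0 : z = 0
  · exact Or.inl hz0
  right
  have hd0 := lf_ne_zero hd
  have h1 := hw.nonneg_of_mem_CInt hi.1 h (mul_ne_zero hd0 hz0)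
  rw [hw.map_mul i _ _ hd0 hz0, hi.2 d hd] at h1
  omega

/-- a closed point contains the value of a polynomial which is a Gauss unit. -/
theorem exists_gauss_unit_mem (hϖ : Irreducible ϖ) {n : Ideal (CInt R K t)}
    (hn : IsClosedPt ϖ n) :
    ∃ s : R[X], ¬ C ϖ ∣ s ∧ (⟨evR R K t s, evR_mem_CInt t s⟩ : CInt R K t) ∈ n := by
  have hmax := hn.max
  let φ : R[X] →+* CInt R K t := (evR R K t).codRestrict (CInt R K t) (evR_mem_CInt t)
  have hφ : φ.IsIntegral := by
    intro c
    obtain ⟨P, hP, h⟩ := c.2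
    refine ⟨P, hP, Subtype.ext ?_⟩
    have h1 : ((eval₂ φ c P : CInt R K t) : F) = eval₂ (evR R K t) (c : F) P := by
      have := Polynomial.hom_eval₂ P φ (CInt R K t).subtype c
      exact this
    rw [h1, h]; rfl
  have hm : (n.comap φ).IsMaximal := Ideal.isMaximal_comap_of_isIntegral_of_isMaximal' φ hφ n
  by_contra hcon
  push Not at hcon
  have hX : (X : R[X]) ∉ n.comap φ := by
    intro h
    have h1 : C ϖ ∣ (X : R[X]) := by
      by_contra h2
      exact hcon X h2 h
    rw [C_dvd_iff_dvd_coeff] at h1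
    have := h1 1
    rw [coeff_X_one] at this
    exact hϖ.not_isUnit (isUnit_of_dvd_one this)
  obtain ⟨p, i, hi, hp⟩ := hm.exists_inv hX
  have h1 : C ϖ ∣ p * X - 1 := by
    by_contra h2
    apply hcon _ h2
    have h3 : p * X - 1 = -i := by rw [← hp]; ring
    have h4 : p * X - 1 ∈ n.comap φ := by rw [h3]; exact neg_mem hi
    exact h4
  rw [C_dvd_iff_dvd_coeff] at h1
  have := h1 0
  rw [coeff_sub, mul_coeff_zero, coeff_X_zero, mul_zero, zero_sub, coeff_one_zero] at this
  exact hϖ.not_isUnit (isUnit_of_dvd_one ((dvd_neg).1 this))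

theorem VertFam.evR_notMem_nonunits (hV : VertFam (K := K) ϖ t V) {s : R[X]} (hs : ¬ C ϖ ∣ s)
    (k : κ) : evR R K t s ∉ (V k).nonunits := by
  intro h
  have hs0 : s ≠ 0 := fun h0 => hs (h0 ▸ dvd_zero _)
  have h0 : evR R K t s ≠ 0 := fun h1 =>
    hs0 (evR_injective (R := R) hV.trans (h1.trans (map_zero _).symm))
  have h1 : (evR R K t s)⁻¹ ∈ V k := (hV.inO_iff _).1 ⟨s, hs, by
    rw [mul_inv_cancel₀ h0]; exact one_mem _⟩ k
  have h2 := mul_mem_nonunits (V k) h1 h
  rw [inv_mul_cancel₀ h0] at h2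
  exact one_notMem_nonunits _ h2

/-- the centre in `O_n` of a valuation ring `W ⊇ O_n`, not centred at the closed point, is generated by any prime element it contains. -/
theorem dvd_of_mem_nonunits (ht : Transcendental K t) (hfin : FiniteDimensional K⟮t⟯ F)
    {n : Ideal (CInt R K t)} [n.IsPrime] (hreg : Reg2 n) (W : ValuationSubring F)
    (hOW : ∀ z, InLoc n z → z ∈ W) {z₀ : F} (hz₀ : InMax n z₀) (hz₀' : z₀ ∉ W.nonunits)
    {g : Oloc n} (hg : Prime g) (hgW : (g : F) ∈ W.nonunits) (a : Oloc n)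
    (ha : (a : F) ∈ W.nonunits) : g ∣ a := by
  have := oloc_isNoetherianRing n ht hfin
  obtain ⟨G, hG, hpir⟩ := hreg.exists_prime ht hfin
  let Q : Ideal (Oloc n) :=
    { carrier := {z | (z : F) ∈ W.nonunits}
      add_mem' := fun {a b} ha hb => add_mem_nonunits W ha hb
      zero_mem' := zero_mem_nonunits W
      smul_mem' := fun c z hz => mul_mem_nonunits W (hOW _ c.2) hz }
  have hQ : Q.IsPrime := by
    refine ⟨fun h => ?_, fun {a b} hab => ?_⟩
    · have : (1 : Oloc n) ∈ Q := by rw [h]; trivial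
      exact one_notMem_nonunits W this
    · exact mem_nonunits_or_of_mul W (hOW _ a.2) (hOW _ b.2) hab
  have hQm : Q ≠ IsLocalRing.maximalIdeal (Oloc n) := by
    intro h
    have h1 : (⟨z₀, hz₀.inLoc⟩ : Oloc n) ∈ Q := by
      rw [h]; exact (mem_maximalIdeal_oloc_iff n _).2 hz₀
    exact hz₀' h1
  have h := eq_span_of_prime_mem G hG hpir Q hQm g hg hgW
  have ha' : a ∈ Q := ha
  rw [h] at ha'
  exact Ideal.mem_span_singleton.1 ha'

/-- `g`-adic decomposition of an element of the fraction field. -/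
theorem exists_decomp {O L : Type*} [CommRing O] [IsDomain O] [WfDvdMonoid O] [Field L]
    [Algebra O L] [IsFractionRing O L] {g : O} (hg : Prime g) {z : L} (hz : z ≠ 0) :
    ∃ (e : ℤ) (a b : O), ¬ g ∣ a ∧ ¬ g ∣ b ∧
      z * algebraMap O L b = algebraMap O L g ^ e * algebraMap O L a := by
  have hinj : Function.Injective (algebraMap O L) := IsFractionRing.injective O L
  obtain ⟨a₀, b₀, hb₀, rfl⟩ := IsFractionRing.div_surjective (A := O) z
  have hb₀0 : b₀ ≠ 0 := nonZeroDivisors.ne_zero hb₀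
  have ha₀0 : a₀ ≠ 0 := by
    rintro rfl
    rw [map_zero, zero_div] at hz
    exact hz rfl
  obtain ⟨α, a, ha, rfl⟩ := WfDvdMonoid.max_power_factor ha₀0 hg.irreducible
  obtain ⟨β, b, hb, rfl⟩ := WfDvdMonoid.max_power_factor hb₀0 hg.irreducible
  have hgL : algebraMap O L g ≠ 0 := fun h => hg.ne_zero (hinj (h.trans (map_zero _).symm))
  have hbL : algebraMap O L b ≠ 0 := fun h =>
    hb (by rw [hinj (h.trans (map_zero _).symm)]; exact dvd_zero _)
  refine ⟨(α : ℤ) - β, a, b, ha, hb, ?_⟩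
  rw [zpow_sub₀ hgL, zpow_natCast, zpow_natCast, map_mul, map_mul, map_pow, map_pow]
  field_simp

theorem zpow_eq_zero_of_unit (W : ValuationSubring F) {x : F} (hx : x ∈ W.nonunits) (hx0 : x ≠ 0)
    {e : ℤ} (h1 : x ^ e ∈ W) (h2 : (x ^ e)⁻¹ ∈ W) : e = 0 := by
  have hpow : ∀ k : ℕ, 0 < k → x ^ k ∈ W.nonunits := by
    intro k hk
    obtain ⟨k, rfl⟩ : ∃ k', k = k' + 1 := ⟨k - 1, by omega⟩
    rw [pow_succ]
    exact mul_mem_nonunits W (pow_mem (mem_of_mem_nonunits W hx) k) hx
  by_contra he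
  rcases lt_or_gt_of_ne he with h | h
  · obtain ⟨k, hk⟩ : ∃ k : ℕ, e = -(k : ℤ) := ⟨(-e).toNat, by omega⟩
    have h3 : (x ^ e)⁻¹ = x ^ k := by rw [hk, zpow_neg, inv_inv, zpow_natCast]
    have h4 := mul_mem_nonunits W h1 (h3 ▸ hpow k (by omega))
    rw [mul_inv_cancel₀ (zpow_ne_zero _ hx0)] at h4
    exact one_notMem_nonunits W h4
  · obtain ⟨k, hk⟩ : ∃ k : ℕ, e = (k : ℤ) := ⟨e.toNat, by omega⟩
    have h3 : x ^ e = x ^ k := by rw [hk, zpow_natCast]
    have h4 := mul_mem_nonunits W h2 (h3 ▸ hpow k (by omega))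
    rw [inv_mul_cancel₀ (zpow_ne_zero _ hx0)] at h4
    exact one_notMem_nonunits W h4

variable [Finite κ]

/-- **(KUMMER / LOC)**. -/
theorem exists_eq_unit_mul_pow (hϖ : Irreducible ϖ) (hV : VertFam (K := K) ϖ t V)
    (hw : ValFam K w) (hint : IntAt K w t) (hone : ∀ i, ∃ u : F, u ≠ 0 ∧ w i u = 1)
    {n : Ideal (CInt R K t)} (hn : IsClosedPt ϖ n) (hreg : Reg2 n) {m : ℕ} (hm : 0 < m) {f : F}
    (hf : f ≠ 0) (hdiv : ∀ i, Thru w i n → (m : ℤ) ∣ w i f)
    (hunit : ∀ k, Centered (V k) n → f ∈ V k ∧ f⁻¹ ∈ V k) :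
    ∃ h ε : F, h ≠ 0 ∧ LocUnit n ε ∧ f = ε * h ^ m := by
  have hp := hn.max.isPrime
  have ht := hV.trans
  have hfin := hV.fin
  have := oloc_isNoetherianRing n ht hfin
  have := oloc_isFractionRing n ht hfin
  have := hreg.ufd ht hfin
  have hϖ0 := rE_unif_ne_zero (K := K) (F := F) hϖ
  have hϖmax : InMax n (rE R K F ϖ) := ⟨1, loc_one_notMem n, unifC t ϖ, hn.mem, by
    rw [Subring.coe_one, one_mul]; rfl⟩
  have key : ∀ g : Oloc n, Prime g → ∃ (k : ℤ) (a b : Oloc n), ¬ g ∣ a ∧ ¬ g ∣ b ∧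
      f * algebraMap (Oloc n) F b =
        algebraMap (Oloc n) F g ^ ((m : ℤ) * k) * algebraMap (Oloc n) F a := by
    intro g hg
    have hg0 : (g : F) ≠ 0 := fun h => hg.ne_zero (Subtype.ext h)
    obtain ⟨e, a, b, ha, hb, hfe⟩ := exists_decomp (L := F) hg hf
    have ha0 : (a : F) ≠ 0 := fun h => ha (by rw [Subtype.ext h (a2 := (0 : Oloc n))]; exact dvd_zero _)
    have hb0 : (b : F) ≠ 0 := fun h => hb (by rw [Subtype.ext h (a2 := (0 : Oloc n))]; exact dvd_zero _)
    have hfe' : f * (b : F) = (g : F) ^ e * (a : F) := hfe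
    suffices hme : (m : ℤ) ∣ e by
      obtain ⟨k, rfl⟩ := hme
      exact ⟨k, a, b, ha, hb, hfe⟩
    by_cases hgϖ : g ∣ ⟨rE R K F ϖ, hϖmax.inLoc⟩
    · -- vertical prime
      have hex : ∃ k, Centered (V k) n ∧ (g : F) ∈ (V k).nonunits := by
        by_contra hcon
        push Not at hcon
        have h1 : InLoc n ((g : F)⁻¹) := by
          refine hV.sat_loc hϖ 1 ?_ fun k hk => ?_
          · obtain ⟨c, hc⟩ := hgϖ
            have hc' : rE R K F ϖ = (g : F) * (c : F) := congrArg (fun z : Oloc n => (z : F)) hc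
            rw [pow_one, hc', mul_comm (g : F), mul_assoc, mul_inv_cancel₀ hg0, mul_one]
            exact c.2
          · exact inv_mem_of_notMem_nonunits (V k)
              (Centered.mem_of_inLoc (fun y hy => hV.mem_of_mem_CInt hϖ hy k) hk g.2) (hcon k hk)
        exact hg.not_isUnit ((isUnit_oloc_iff n g).2 ⟨hg0, g.2, h1⟩)
      obtain ⟨k, hk, hgk⟩ := hex
      have hOW : ∀ z, InLoc n z → z ∈ V k := fun z hz =>
        Centered.mem_of_inLoc (fun y hy => hV.mem_of_mem_CInt hϖ hy k) hk hz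
      obtain ⟨s, hs, hsn⟩ := exists_gauss_unit_mem hϖ hn
      have hsmax : InMax n (evR R K t s) := ⟨1, loc_one_notMem n, _, hsn, by
        rw [Subring.coe_one, one_mul]⟩
      have hdv := dvd_of_mem_nonunits ht hfin hreg (V k) hOW hsmax (hV.evR_notMem_nonunits hs k)
        hg hgk
      have ha' : (a : F)⁻¹ ∈ V k := inv_mem_of_notMem_nonunits _ (hOW _ a.2) fun h => ha (hdv a h)
      have hb' : (b : F)⁻¹ ∈ V k := inv_mem_of_notMem_nonunits _ (hOW _ b.2) fun h => hb (hdv b h)
      have e1 : (g : F) ^ e = f * (b : F) * (a : F)⁻¹ := by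
        rw [hfe', mul_assoc, mul_inv_cancel₀ ha0, mul_one]
      have e2 : ((g : F) ^ e)⁻¹ = f⁻¹ * (b : F)⁻¹ * (a : F) := by
        rw [e1, mul_inv, mul_inv, inv_inv]
      have he : e = 0 := zpow_eq_zero_of_unit (V k) hgk hg0
        (e1 ▸ mul_mem (mul_mem (hunit k hk).1 (hOW _ b.2)) ha')
        (e2 ▸ mul_mem (mul_mem (hunit k hk).2 hb') (hOW _ a.2))
      rw [he]; exact dvd_zero _
    · -- horizontal prime
      have hex : ∃ i, Thru w i n ∧ 0 < w i (g : F) := by
        by_contra hcon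
        push Not at hcon
        obtain ⟨j, hj⟩ := exists_inLoc_of_nonneg hϖ hw hint n (inv_ne_zero hg0) fun i hi => by
          rw [hw.map_inv i hg0]
          have := hcon i hi
          omega
        apply hgϖ
        apply hg.dvd_of_dvd_pow (n := j)
        refine ⟨⟨_, hj⟩, Subtype.ext ?_⟩
        rw [Subring.coe_mul, Subring.coe_pow]
        change rE R K F ϖ ^ j = (g : F) * (rE R K F ϖ ^ j * (g : F)⁻¹)
        field_simp
      obtain ⟨i, hi, hgi⟩ := hex
      have hOW : ∀ z, InLoc n z → z ∈ hw.valO i := fun z hz => Thru.mem_valO hw hi hz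
      have hϖW : rE R K F ϖ ∉ (hw.valO i).nonunits := by
        rw [mem_nonunits_valO_iff]
        rintro (h | h)
        · exact hϖ0 h
        · rw [hw.map_rE i hϖ.ne_zero] at h; exact lt_irrefl _ h
      have hdv := dvd_of_mem_nonunits ht hfin hreg (hw.valO i) hOW hϖmax hϖW hg
        ((mem_nonunits_valO_iff hw i _).2 (Or.inr hgi))
      have hzero : ∀ c : Oloc n, ¬ g ∣ c → w i (c : F) = 0 := by
        intro c hc
        have hc0 : (c : F) ≠ 0 := fun h =>
          hc (by rw [Subtype.ext h (a2 := (0 : Oloc n))]; exact dvd_zero _)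
        have h1 : ¬ (0 < w i (c : F)) := fun h =>
          hc (hdv c ((mem_nonunits_valO_iff hw i _).2 (Or.inr h)))
        rcases hOW _ c.2 with h2 | h2
        · exact absurd h2 hc0
        · omega
      have hval : ∀ z : F, z ≠ 0 → ∃ e' : ℤ, w i z = e' * w i (g : F) := by
        intro z hz
        obtain ⟨e', a', b', ha', hb', hz'⟩ := exists_decomp (L := F) hg hz
        have hz'' : z * (b' : F) = (g : F) ^ e' * (a' : F) := hz'
        have ha'0 : (a' : F) ≠ 0 := fun h =>
          ha' (by rw [Subtype.ext h (a2 := (0 : Oloc n))]; exact dvd_zero _)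
        have hb'0 : (b' : F) ≠ 0 := fun h =>
          hb' (by rw [Subtype.ext h (a2 := (0 : Oloc n))]; exact dvd_zero _)
        have h1 := congrArg (w i) hz''
        rw [hw.map_mul i _ _ hz hb'0, hw.map_mul i _ _ (zpow_ne_zero _ hg0) ha'0,
          hw.map_zpow i hg0, hzero a' ha', hzero b' hb'] at h1
        exact ⟨e', by omega⟩
      obtain ⟨u, hu0, hu⟩ := hone i
      obtain ⟨eu, heu⟩ := hval u hu0
      have hg1 : w i (g : F) = 1 := by
        rw [hu] at heu
        exact Int.eq_one_of_dvd_one hgi.le ⟨eu, by rw [heu]; ring⟩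
      have h1 := congrArg (w i) hfe'
      rw [hw.map_mul i _ _ hf hb0, hw.map_mul i _ _ (zpow_ne_zero _ hg0) ha0,
        hw.map_zpow i hg0, hzero a ha, hzero b hb, hg1] at h1
      have h2 := hdiv i hi
      have h3 : w i f = e := by omega
      rwa [h3] at h2
  obtain ⟨ε, h, e⟩ := S36.exists_unit_mul_pow (O := Oloc n) (L := F) hm f key
  refine ⟨h, ((ε : Oloc n) : F), ?_, (isUnit_oloc_iff n _).1 ε.isUnit, e⟩
  rintro rfl
  rw [zero_pow hm.ne', mul_zero] at e
  exact hf e

end Fermat.Agent.S36.LG
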