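import Fermat.Agent.S36.LG.Kummer

set_option autoImplicit false
set_option linter.unusedSectionVars false

/-!
# S36 / LG / Cases : `Reg2 n` in the cases (a)-(e) of the blueprint (lead's #411 (2))

All cases have the same shape: a component `V k₀` through `n`, the lower level data `(ι, hNT, n₁, hSm)` for that component
(`C / 𝔭_{V k₀} = C₁ / ϖ`, `n₁ = ι⁻¹ n` smooth-like), and a generator of the centre of `V k₀`:

* `reg2_of_only`    : (a), (c)  only `V k₀` through `n`, multiplicity one: `G = ϖ`;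
* `reg2_of_genUnit` : (b)       `G = g` a unit of `O_n[1/ϖ]`, uniformiser of `V k₀`, unit of the other components through `n` (`g = q G₂`, `1 / G₁`);
* `reg2_of_mid`     : (d), (e)  only `V k₀` through `n`, multiplicity `e`, `G = Y` with `(Y ^ e / ϖ) ^ r ≡ y mod 𝔪_{V k₀}`, `y` a unit of `O_n`.
-/

noncomputable section

namespace Fermat.Agent.S36.LG

open Polynomial IntermediateField Fermat.Agent.S18 Fermat.Agent.S34

variable {R K F : Type} [CommRing R] [IsDomain R] [IsDiscreteValuationRing R] [Field K] [CharZero K]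
  [Algebra R K] [IsFractionRing R K] [Field F] [Algebra K F] {ϖ : R} {t : F} {κ : Type}
  {V : κ → ValuationSubring F}

theorem inMax_pow {n : Ideal (CInt R K t)} [n.IsPrime] {z : F} (hz : InMax n z) {r : ℕ}
    (hr : 0 < r) : InMax n (z ^ r) := by
  obtain ⟨r, rfl⟩ : ∃ r', r = r' + 1 := ⟨r - 1, by omega⟩
  rw [pow_succ]
  exact InMax.mul_left (hz.inLoc.pow r) hz

theorem inMax_sub {n : Ideal (CInt R K t)} [n.IsPrime] {y z : F} (hy : InMax n y)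
    (hz : InMax n z) : InMax n (y - z) := by
  have h1 : InMax n (-1 * z) :=
    InMax.mul_left (InLoc.of_mem n (neg_mem (one_mem _))) hz
  have e : y - z = y + -1 * z := by ring
  rw [e]
  exact hy.add h1

/-- **unit by congruence**: `z ∈ O_n`, `z ^ r ≡ y` modulo the maximal ideal of a component through `n`, `y` a unit of `O_n`. -/
theorem locUnit_of_pow_sub_mem {n : Ideal (CInt R K t)} [n.IsPrime] {W : ValuationSubring F}
    (hWC : ∀ y ∈ CInt R K t, y ∈ W) (hc : Centered W n) {z y : F} (hz : InLoc n z)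
    (hy : LocUnit n y) {r : ℕ} (hr : 0 < r) (h : z ^ r - y ∈ W.nonunits) : LocUnit n z := by
  refine LocUnit.of_not_inMax hz fun hzm => ?_
  have h1 : InMax n (z ^ r - y) := inMax_of_mem_nonunits hWC hc ((hz.pow r).sub hy.2.1) h
  have h2 := inMax_sub (inMax_pow hzm hr) h1
  rw [sub_sub_cancel] at h2
  exact not_locUnit_of_inMax n h2 hy

/-- a component through `n` restricts to a component through `ι⁻¹ n`. -/
theorem centered_comap {F₁ : Type} [Field F₁] [Algebra K F₁] {t₁ : F₁} (ι : F₁ →+* F)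
    (hιC : ∀ y ∈ CInt R K t₁, ι y ∈ CInt R K t) {n : Ideal (CInt R K t)}
    {n₁ : Ideal (CInt R K t₁)}
    (hn₁ : ∀ y : CInt R K t₁, y ∈ n₁ ↔ (⟨ι y, hιC y y.2⟩ : CInt R K t) ∈ n)
    {W : ValuationSubring F} (hc : Centered W n) : Centered (W.comap ι) n₁ := by
  intro c hcm
  rw [hn₁]
  apply hc
  rw [ValuationSubring.mem_nonunits_iff_or] at hcm ⊢
  rcases hcm with h | h
  · left
    change ι (c : F₁) = 0
    rw [h, map_zero]
  · right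
    intro h'
    apply h
    rw [ValuationSubring.mem_comap, map_inv₀]
    exact h'

section
variable [Finite κ] {F₁ : Type} [Field F₁] [Algebra K F₁] {t₁ : F₁} (ι : F₁ →+* F)
  (hιC : ∀ y ∈ CInt R K t₁, ι y ∈ CInt R K t)

/-- cases **(a), (c)**. -/
theorem reg2_of_only (hϖ : Irreducible ϖ) (hV : VertFam (K := K) ϖ t V)
    (hιϖ : ι (rE R K F₁ ϖ) = rE R K F ϖ) {n : Ideal (CInt R K t)} [n.IsPrime] (k₀ : κ)
    (hc₀ : Centered (V k₀) n) (honly : ∀ k, Centered (V k) n → k = k₀)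
    (hram : ∀ z ∈ (V k₀).nonunits, (rE R K F ϖ)⁻¹ * z ∈ V k₀)
    (hNT : ∀ c ∈ CInt R K t, ∃ y ∈ CInt R K t₁, c - ι y ∈ (V k₀).nonunits)
    {n₁ : Ideal (CInt R K t₁)}
    (hn₁ : ∀ y : CInt R K t₁, y ∈ n₁ ↔ (⟨ι y, hιC y y.2⟩ : CInt R K t) ∈ n)
    (hSm : SmAt ϖ n₁) : Reg2 n :=
  reg2_of_prinC ι hιC hιϖ (fun _ hy => hV.mem_of_mem_CInt hϖ hy k₀) hc₀ (hV.mem k₀) hNT hn₁ hSm
    (prinC_unif hϖ hV k₀ honly hram)

/-- case **(b)**. -/
theorem reg2_of_genUnit (hϖ : Irreducible ϖ) (hV : VertFam (K := K) ϖ t V)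
    (hιϖ : ι (rE R K F₁ ϖ) = rE R K F ϖ) {n : Ideal (CInt R K t)} [n.IsPrime] (k₀ : κ)
    (hc₀ : Centered (V k₀) n) {g : F} (hg : GenUnit ϖ n g)
    (hg1 : g ∈ (V k₀).nonunits) (hg2 : ∀ z ∈ (V k₀).nonunits, g⁻¹ * z ∈ V k₀)
    (hg3 : ∀ k, k ≠ k₀ → Centered (V k) n → g ∈ V k ∧ g⁻¹ ∈ V k)
    (hNT : ∀ c ∈ CInt R K t, ∃ y ∈ CInt R K t₁, c - ι y ∈ (V k₀).nonunits)
    {n₁ : Ideal (CInt R K t₁)}
    (hn₁ : ∀ y : CInt R K t₁, y ∈ n₁ ↔ (⟨ι y, hιC y y.2⟩ : CInt R K t) ∈ n)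
    (hSm : SmAt ϖ n₁) : Reg2 n :=
  reg2_of_prinC ι hιC hιϖ (fun _ hy => hV.mem_of_mem_CInt hϖ hy k₀) hc₀ (hV.mem k₀) hNT hn₁ hSm
    (prinC_of_genUnit hϖ hV hg k₀ hg1 hg2 hg3)

/-- `Y ^ e / ϖ ∈ O_n` when only `V k₀` passes through `n`. -/
theorem inLoc_pow_div_unif (hϖ : Irreducible ϖ) (hV : VertFam (K := K) ϖ t V)
    {n : Ideal (CInt R K t)} [n.IsPrime] (k₀ : κ) (honly : ∀ k, Centered (V k) n → k = k₀)
    {e : ℕ} (hram : ∀ z ∈ (V k₀).nonunits, (rE R K F ϖ)⁻¹ * z ^ e ∈ V k₀)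
    {Y : F} (hY : InLoc n Y) (hY' : Y ∈ (V k₀).nonunits) :
    InLoc n ((rE R K F ϖ)⁻¹ * Y ^ e) := by
  have hϖ0 := rE_unif_ne_zero (K := K) (F := F) hϖ
  refine hV.sat_loc hϖ 1 ?_ fun k hk => ?_
  · rw [pow_one, ← mul_assoc, mul_inv_cancel₀ hϖ0, one_mul]
    exact hY.pow e
  · rw [honly k hk]
    exact hram Y hY'

/-- cases **(d), (e)**. -/
theorem reg2_of_mid (hϖ : Irreducible ϖ) (hV : VertFam (K := K) ϖ t V)
    (hιϖ : ι (rE R K F₁ ϖ) = rE R K F ϖ) {n : Ideal (CInt R K t)} [n.IsPrime] (k₀ : κ)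
    (hc₀ : Centered (V k₀) n) (honly : ∀ k, Centered (V k) n → k = k₀)
    {e : ℕ} (he : 0 < e) (hram : ∀ z ∈ (V k₀).nonunits, (rE R K F ϖ)⁻¹ * z ^ e ∈ V k₀)
    {Y : F} (hY : InLoc n Y) (hY' : Y ∈ (V k₀).nonunits)
    {y : F} (hy : LocUnit n y) {r : ℕ} (hr : 0 < r)
    (hcong : ((rE R K F ϖ)⁻¹ * Y ^ e) ^ r - y ∈ (V k₀).nonunits)
    (hNT : ∀ c ∈ CInt R K t, ∃ y ∈ CInt R K t₁, c - ι y ∈ (V k₀).nonunits)
    {n₁ : Ideal (CInt R K t₁)}
    (hn₁ : ∀ y : CInt R K t₁, y ∈ n₁ ↔ (⟨ι y, hιC y y.2⟩ : CInt R K t) ∈ n)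
    (hSm : SmAt ϖ n₁) : Reg2 n :=
  reg2_of_prinC ι hιC hιϖ (fun _ hy => hV.mem_of_mem_CInt hϖ hy k₀) hc₀ (hV.mem k₀) hNT hn₁ hSm
    (prinC_of_pow hϖ hV k₀ hc₀ honly he hram hY hY'
      (locUnit_of_pow_sub_mem (fun _ hy => hV.mem_of_mem_CInt hϖ hy k₀) hc₀
        (inLoc_pow_div_unif hϖ hV k₀ honly hram hY hY') hy hr hcong))

end

end Fermat.Agent.S36.LG
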