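import Fermat.Agent.S34.Val

set_option autoImplicit false

/-!
# S36 / LG : local generators at the closed points of the special fibre -- definitions

Language of `S34/Defs.lean`, `S34/Loc.lean`, `S34/Val.lean`: `R` a DVR with uniformiser `ϖ`, `K = Frac R`, `F / K` a function
field, `t : F` the coordinate of a chart, `C = CInt R K t`, `n` a closed point, `O_n = Oloc n` (`InLoc`, `InMax`, `LocUnit`).

* `VertFam ϖ t V` : `V k` (`k : κ`, `κ` finite) are the extensions of the Gauss valuation ("components of the special fibre", any multiplicity);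
* `PrinC n W G`   : `𝔪_W ∩ O_n = G O_n`;
* `Reg2 n`        : `𝔪_n = (G, S)` with `G` a prime element of `O_n`  (so `O_n / G` is a DVR or a field, and `O_n` is factorial).
-/

noncomputable section

namespace Fermat.Agent.S36.LG

open Polynomial IntermediateField Fermat.Agent.S18 Fermat.Agent.S34

variable {R K F : Type} [CommRing R] [Field K] [Algebra R K] [Field F] [Algebra K F]

/-- `V k`, `k : κ`, are the extensions to `F` of the Gauss valuation of `K(t)`. -/
structure VertFam (ϖ : R) (t : F) {κ : Type} (V : κ → ValuationSubring F) : Prop where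
  trans : Transcendental K t
  fin : FiniteDimensional K⟮t⟯ F
  inO_iff : ∀ y : F, InO K ϖ t y ↔ ∀ k, y ∈ V k
  mem : ∀ k, rE R K F ϖ ∈ (V k).nonunits
  ram : ∀ k, ∃ e : ℕ, 0 < e ∧ ∀ z ∈ (V k).nonunits, (rE R K F ϖ)⁻¹ * z ^ e ∈ V k

/-- `G` generates the centre of `W` in the local ring at `n`. -/
def PrinC {t : F} (n : Ideal (CInt R K t)) (W : ValuationSubring F) (G : F) : Prop :=
  G ≠ 0 ∧ InLoc n G ∧ G ∈ W.nonunits ∧ ∀ z : F, InLoc n z → z ∈ W.nonunits → InLoc n (G⁻¹ * z)

/-- `z` is divisible by `G` in the local ring at `n`. -/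
def LDvd {t : F} (n : Ideal (CInt R K t)) (G z : F) : Prop := ∃ c : F, InLoc n c ∧ z = G * c

/-- the local ring at `n` is "regular of dimension ≤ 2 with a distinguished prime parameter". -/
def Reg2 {t : F} (n : Ideal (CInt R K t)) : Prop :=
  ∃ G S : F, G ≠ 0 ∧ InMax n G ∧ InMax n S ∧
    (∀ a b : F, InLoc n a → InLoc n b → LDvd n G (a * b) → LDvd n G a ∨ LDvd n G b) ∧
    ∀ z : F, InMax n z → ∃ a b : F, InLoc n a ∧ InLoc n b ∧ z = G * a + S * b

end Fermat.Agent.S36.LG
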