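import Fermat.Agent.S34.Val

set_option autoImplicit false

/-!
# S36 / LG / E1Abs : constant field extensions are unramified (abstract form)   (task LG-E1Abs)

`K ⊆ L` fields of characteristic `0`, `L / K` algebraic; `E ⊇ L` a field, `j : F → E` a subfield containing `K`, `E = Frac (L[j F])`;
`w i` a discrete valuation of `E`, trivial on `L`, with residue field `L` and value group `ℤ` (`RatAt L w i`).
Then `w i ∘ j` still has value group `ℤ`.   MATHLIB + `S34/Val.lean` (API of `ValFam`: `map_one, map_inv, map_pow, map_zpow, map_sub, valO`) only.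

## Sketch  (write `v = w i`, `W = hw.valO i` (`z ∈ W ↔ z = 0 ∨ 0 ≤ v z`), `𝔪 = {z | z = 0 ∨ 0 < v z}`)
1. `v ∘ j` is not identically `0` on `F \ 0`: otherwise `range j ⊆ W`, `L ⊆ W`, so `Algebra.adjoin L (range j) ⊆ W` (`Algebra.adjoin_le` for the subalgebra with carrier `W`,
   or `Algebra.adjoin_induction`) with all nonzero elements ... simpler: see 6., which shows `μ ∣ v z` for all `z` for ANY `μ` dividing all `v (j a)`.
   Let `μ > 0` be the least positive value of `v (j a)`, `a ≠ 0` (`Nat.find` / `WellFounded.min`; if `v (j a) < 0` use `a⁻¹`), `v (j g) = μ`.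
   Then `a ≠ 0`, `0 < v (j a)` ⟹ `μ ≤ v (j a)`, i.e. `0 ≤ v (j (a / g))`.
2. `O_F := {a : F | j a ∈ W}`, `B := Algebra.adjoin L (j '' O_F)`; `B ⊆ W`; `j g ∈ B`.
3. congruence lemma: `Q : L[X]`, `z ∈ W`, `α : L`, `z - α ∈ 𝔪` ⟹ `aeval z Q - aeval (algebraMap L E α) Q ∈ 𝔪` (`Polynomial.induction_on'`; `z^(n+1) - α^(n+1) = z (z^n - α^n) + α^n (z - α)`).
4. KEY CLAIM `P y := ∃ (α : L) (e y' : E), e ∈ B ∧ e ∉ 𝔪 ∧ y' ∈ B ∧ e * (y - algebraMap L E α) = j g * y'` holds for every `y ∈ B` (`Algebra.adjoin_induction`):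
   * `y = j a`, `a ∈ O_F`: `α` from `hr.1` (`α = 0` if `j a = 0`), so `j a - α ∈ 𝔪`.  `P₀ := minpoly K α` (`α` is integral over `K`), separable (`minpoly.irreducible`, `Irreducible.separable` in char. `0`).
     In `L[X]`: `P₀.map (algebraMap K L) = (X - C α) * ν` (`Polynomial.dvd_iff_isRoot`), and `ν.eval α ≠ 0` (derivative of the product at `α` is `ν.eval α`; `Polynomial.Separable.aeval_derivative_ne_zero`
     or `Separable.map` + `Separable.squarefree`).   `e := aeval (j a) ν ∈ B`;  `e ∉ 𝔪` by 3. (`aeval α ν = ν.eval α` is a nonzero constant, `v = 0`).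
     `e * (j a - α) = aeval (j a) (P₀.map _) = j (aeval a P₀)` (`hj`; `Polynomial.aeval_map_algebraMap`, `Polynomial.hom_eval₂`), it lies in `𝔪` (`e ∈ W`), so `b := aeval a P₀` is `0` or `0 < v (j b)`: `b / g ∈ O_F` by 1.,  `y' := j (b / g)`.
   * `y = algebraMap L E c`: `α = c`, `e = 1`, `y' = 0`.
   * `y₁ + y₂`: `α₁ + α₂`, `e₁ e₂`, `e₂ y₁' + e₁ y₂'`.      * `y₁ y₂`: `α₁ α₂`, `e₁ e₂`, `(e₁ y₁) y₂' + α₂ e₂ y₁'`  [`y₁ y₂ - α₁ α₂ = y₁ (y₂ - α₂) + α₂ (y₁ - α₁)`].
     (`e₁ e₂ ∉ 𝔪`: `v (e₁ e₂) = 0`.)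
5. `y ∈ B`, `y ≠ 0`, `0 < v y` ⟹ `∃ y' ∈ B, y' ≠ 0 ∧ v y = μ + v y'`:  in 4., `e (y - α) ∈ 𝔪`, `e ∉ 𝔪` give `y - α ∈ 𝔪`, so `α ∈ 𝔪`, `α = 0` (`hw.map_const`); `v e = 0`.
   Strong induction on `(v y).toNat`: `μ ∣ v y` for all `y ∈ B \ 0`.
6. for `z ∈ Algebra.adjoin L (range j)` there is `k` with `(j g)^k * z ∈ B` (`Algebra.adjoin_induction`: `j a`: `k = (- v (j a)).toNat` works since `μ ≥ 1`; sums/products: `k₁ + k₂`).
   Hence `μ ∣ v z` for `z ≠ 0` in the adjoin, hence (by `hspan`, `map_div`) for all `z ≠ 0`; `hr.2` gives `μ ∣ 1`, `μ = 1`, `u := g`.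
-/

noncomputable section

namespace Fermat.Agent.S36.LG

open Polynomial Fermat.Agent.S34

section E1AbsAux

variable {L E : Type} [Field L] [Field E] [Algebra L E] {ι : Type} {w : ι → E → ℤ}

/-- `z` lies in the valuation ring of `w i`. -/
def e1NN (w : ι → E → ℤ) (i : ι) (z : E) : Prop := z = 0 ∨ 0 ≤ w i z

/-- `z` lies in the maximal ideal of `w i`. -/
def e1Pos (w : ι → E → ℤ) (i : ι) (z : E) : Prop := z = 0 ∨ 0 < w i z

theorem e1Pos.nn {i : ι} {z : E} (h : e1Pos w i z) : e1NN w i z := h.imp id le_of_lt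

theorem e1NN.add (hw : ValFam L w) {i : ι} {a b : E} (ha : e1NN w i a) (hb : e1NN w i b) :
    e1NN w i (a + b) := (hw.valO i).add_mem _ _ ha hb

theorem e1NN.mul (hw : ValFam L w) {i : ι} {a b : E} (ha : e1NN w i a) (hb : e1NN w i b) :
    e1NN w i (a * b) := (hw.valO i).mul_mem _ _ ha hb

theorem e1NN_const (hw : ValFam L w) (i : ι) (c : L) : e1NN w i (algebraMap L E c) := by
  by_cases hc : c = 0
  · left; rw [hc, map_zero]
  · right; rw [hw.map_const i c hc]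

theorem e1Pos.add (hw : ValFam L w) {i : ι} {a b : E} (ha : e1Pos w i a) (hb : e1Pos w i b) :
    e1Pos w i (a + b) := by
  rcases ha with rfl | ha
  · rwa [zero_add]
  rcases hb with rfl | hb
  · rw [add_zero]; exact Or.inr ha
  by_cases hab : a + b = 0
  · exact Or.inl hab
  by_cases ha0 : a = 0
  · rw [ha0, zero_add]; exact Or.inr hb
  by_cases hb0 : b = 0
  · rw [hb0, add_zero]; exact Or.inr ha
  right
  exact lt_of_lt_of_le (lt_min ha hb) (hw.map_add i a b ha0 hb0 hab)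

theorem e1Pos.neg (hw : ValFam L w) {i : ι} {a : E} (ha : e1Pos w i a) : e1Pos w i (-a) := by
  by_cases ha0 : a = 0
  · left; rw [ha0, neg_zero]
  rcases ha with rfl | ha
  · exact absurd rfl ha0
  right
  rwa [hw.map_neg i ha0]

theorem e1Pos.sub (hw : ValFam L w) {i : ι} {a b : E} (ha : e1Pos w i a) (hb : e1Pos w i b) :
    e1Pos w i (a - b) := by
  rw [sub_eq_add_neg]
  exact ha.add hw (hb.neg hw)

theorem e1Pos.mul_left (hw : ValFam L w) {i : ι} {a b : E} (ha : e1NN w i a) (hb : e1Pos w i b) :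
    e1Pos w i (a * b) := by
  by_cases ha0 : a = 0
  · left; rw [ha0, zero_mul]
  by_cases hb0 : b = 0
  · left; rw [hb0, mul_zero]
  rcases ha with rfl | ha
  · exact absurd rfl ha0
  rcases hb with rfl | hb
  · exact absurd rfl hb0
  right
  rw [hw.map_mul i a b ha0 hb0]
  omega

theorem e1_unit_add (hw : ValFam L w) {i : ι} {c m : E} (hc0 : c ≠ 0) (hc : w i c = 0)
    (hm : e1Pos w i m) : c + m ≠ 0 ∧ w i (c + m) = 0 := by
  by_cases hm0 : m = 0
  · rw [hm0, add_zero]; exact ⟨hc0, hc⟩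
  rcases hm with rfl | hm
  · exact absurd rfl hm0
  have h1 : c + m ≠ 0 := by
    intro h
    have : c = -m := eq_neg_of_add_eq_zero_left h
    rw [this, hw.map_neg i hm0] at hc
    omega
  refine ⟨h1, ?_⟩
  have h2 := hw.map_add i c m hc0 hm0 h1
  have h3 := hw.map_sub i h1 hm0 (by rwa [add_sub_cancel_right])
  rw [add_sub_cancel_right] at h3
  rw [hc] at h2 h3
  rcases le_total (w i (c + m)) (w i m) with h | h
  · rw [min_eq_left h] at h3
    rw [min_eq_left hm.le] at h2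
    omega
  · rw [min_eq_right h] at h3
    omega

theorem e1_const_eq_zero (hw : ValFam L w) {i : ι} {c : L} (h : e1Pos w i (algebraMap L E c)) :
    c = 0 := by
  by_contra hc
  rcases h with h | h
  · exact hc (by simpa using h)
  · rw [hw.map_const i c hc] at h
    omega

end E1AbsAux

section E1AbsMain

variable {K L F E : Type} [Field K] [CharZero K] [Field L] [Algebra K L]
    [Algebra.IsAlgebraic K L] [Field F] [Algebra K F] [Field E] [Algebra L E] (j : F →+* E)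
    {ι : Type} {w : ι → E → ℤ}

/-- the `L`-algebra generated by the `w i`-integral elements of `F`. -/
def e1B (L : Type) {F E : Type} [Field L] [Field F] [Field E] [Algebra L E] (j : F →+* E)
    {ι : Type} (w : ι → E → ℤ) (i : ι) : Subalgebra L E :=
  Algebra.adjoin L {y | ∃ a : F, e1NN w i (j a) ∧ y = j a}

omit [CharZero K] [Algebra.IsAlgebraic K L] in
theorem e1B_nn (hw : ValFam L w) (i : ι) {y : E} (hy : y ∈ e1B L j w i) : e1NN w i y := by
  induction hy using Algebra.adjoin_induction with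
  | mem x hx =>
    obtain ⟨a, ha, rfl⟩ := hx
    exact ha
  | algebraMap c => exact e1NN_const hw i c
  | add x y _ _ hx hy => exact hx.add hw hy
  | mul x y _ _ hx hy => exact hx.mul hw hy

theorem e1_mem_B {i : ι} {a : F} (ha : e1NN w i (j a)) : j a ∈ e1B L j w i :=
  Algebra.subset_adjoin ⟨a, ha, rfl⟩

theorem e1_aeval_mem {i : ι} {y : E} (hy : y ∈ e1B L j w i) (P : L[X]) :
    aeval y P ∈ e1B L j w i := by
  have h : aeval y P = ((aeval (⟨y, hy⟩ : e1B L j w i) P : e1B L j w i) : E) :=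
    Subalgebra.aeval_coe (e1B L j w i) (⟨y, hy⟩ : e1B L j w i) P
  rw [h]
  exact Subtype.property _

/-- the hypotheses on the candidate uniformiser `g` (`g = 0` if `w i ∘ j` is trivial). -/
structure E1Unif (j : F →+* E) (w : ι → E → ℤ) (i : ι) (g : F) : Prop where
  pos : g ≠ 0 → 0 < w i (j g)
  le : ∀ b : F, b ≠ 0 → 0 < w i (j b) → g ≠ 0 ∧ w i (j g) ≤ w i (j b)

omit [CharZero K] [Algebra.IsAlgebraic K L] in
theorem e1_aeval_j (hj : ∀ c : K, j (algebraMap K F c) = algebraMap L E (algebraMap K L c))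
    (a : F) (P : K[X]) : aeval (j a) (P.map (algebraMap K L)) = j (aeval a P) := by
  rw [aeval_def, eval₂_map, aeval_def, hom_eval₂]
  congr 1
  exact RingHom.ext fun c => (hj c).symm

theorem E1Unif.div (hw : ValFam L w) {i : ι} {g : F} (hg : E1Unif j w i g) {b : F}
    (hb : e1Pos w i (j b)) : ∃ b' : F, e1NN w i (j b') ∧ j b = j g * j b' := by
  by_cases hb0 : b = 0
  · exact ⟨0, Or.inl (map_zero j), by rw [hb0, map_zero, mul_zero]⟩
  have hjb : j b ≠ 0 := (map_ne_zero j).2 hb0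
  rcases hb with hb | hb
  · exact absurd hb hjb
  obtain ⟨hg0, hle⟩ := hg.le b hb0 hb
  have hjg : j g ≠ 0 := (map_ne_zero j).2 hg0
  refine ⟨b / g, Or.inr ?_, ?_⟩
  · rw [map_div₀, hw.map_div i hjb hjg]
    omega
  · rw [map_div₀]
    field_simp

/-- the key claim for a generator. -/
theorem e1_key_gen (hj : ∀ c : K, j (algebraMap K F c) = algebraMap L E (algebraMap K L c))
    (hw : ValFam L w) (i : ι) (hr : RatAt L w i) {g : F} (hg : E1Unif j w i g) (a : F)
    (ha : e1NN w i (j a)) :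
    ∃ (α : L) (e y' : E), e ∈ e1B L j w i ∧ e ≠ 0 ∧ w i e = 0 ∧ y' ∈ e1B L j w i ∧
      e * (j a - algebraMap L E α) = j g * y' := by
  have haB : j a ∈ e1B L j w i := e1_mem_B j ha
  -- the residue
  obtain ⟨α, hα⟩ : ∃ α : L, e1Pos w i (j a - algebraMap L E α) := by
    by_cases h0 : j a = 0
    · exact ⟨0, Or.inl (by rw [h0, map_zero, sub_zero])⟩
    rcases ha with ha | ha
    · exact absurd ha h0
    obtain ⟨c, hc | hc⟩ := hr.1 (j a) h0 ha
    · exact ⟨c, Or.inl (sub_eq_zero.2 hc)⟩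
    · exact ⟨c, Or.inr hc⟩
  have hint : IsIntegral K α := Algebra.IsIntegral.isIntegral α
  set P₀ := minpoly K α with hP₀
  have hsep : P₀.Separable := (minpoly.irreducible hint).separable
  have hroot : (P₀.map (algebraMap K L)).IsRoot α := by
    rw [IsRoot.def, eval_map_algebraMap, hP₀, minpoly.aeval]
  obtain ⟨ν, hν⟩ := dvd_iff_isRoot.2 hroot
  have hν0 : ν.eval α ≠ 0 := by
    have h1 := hsep.aeval_derivative_ne_zero (x := α) (minpoly.aeval K α)
    have h2 : aeval α (derivative P₀) = (derivative (P₀.map (algebraMap K L))).eval α := by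
      rw [derivative_map, eval_map_algebraMap]
    rw [h2, hν, derivative_mul] at h1
    simpa using h1
  obtain ⟨ρ, hρ⟩ := X_sub_C_dvd_sub_C_eval (a := α) (p := ν)
  have he : aeval (j a) ν = algebraMap L E (ν.eval α) +
      aeval (j a) ρ * (j a - algebraMap L E α) := by
    have := congrArg (aeval (j a)) hρ
    rw [map_sub, map_mul, map_sub, aeval_X, aeval_C, aeval_C] at this
    rw [mul_comm, ← this]
    ring
  have hρB : e1NN w i (aeval (j a) ρ) := e1B_nn j hw i (e1_aeval_mem j haB ρ)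
  have hu := e1_unit_add hw (i := i) (c := algebraMap L E (ν.eval α))
    (m := aeval (j a) ρ * (j a - algebraMap L E α)) (by simpa using hν0)
    (hw.map_const i _ hν0) (e1Pos.mul_left hw hρB hα)
  rw [← he] at hu
  have hprod : aeval (j a) ν * (j a - algebraMap L E α) = j (aeval a P₀) := by
    rw [← e1_aeval_j j hj, hν, map_mul, map_sub, aeval_X, aeval_C, mul_comm]
  have hpos : e1Pos w i (j (aeval a P₀)) := by
    rw [← hprod]
    exact e1Pos.mul_left hw (Or.inr hu.2.ge) hα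
  obtain ⟨b', hb', hbb⟩ := hg.div j hw hpos
  exact ⟨α, aeval (j a) ν, j b', e1_aeval_mem j haB ν, hu.1, hu.2, e1_mem_B j hb',
    by rw [hprod, hbb]⟩

/-- the key claim. -/
theorem e1_key (hj : ∀ c : K, j (algebraMap K F c) = algebraMap L E (algebraMap K L c))
    (hw : ValFam L w) (i : ι) (hr : RatAt L w i) {g : F} (hg : E1Unif j w i g) (y : E)
    (hy : y ∈ e1B L j w i) :
    ∃ (α : L) (e y' : E), e ∈ e1B L j w i ∧ e ≠ 0 ∧ w i e = 0 ∧ y' ∈ e1B L j w i ∧
      e * (y - algebraMap L E α) = j g * y' := by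
  induction hy using Algebra.adjoin_induction with
  | mem x hx =>
    obtain ⟨a, ha, rfl⟩ := hx
    exact e1_key_gen j hj hw i hr hg a ha
  | algebraMap c =>
    exact ⟨c, 1, 0, one_mem _, one_ne_zero, hw.map_one i, zero_mem _, by rw [sub_self]; ring⟩
  | add y₁ y₂ h₁ h₂ ih₁ ih₂ =>
    obtain ⟨α₁, e₁, y₁', he₁, he₁0, hv₁, hy₁', h1⟩ := ih₁
    obtain ⟨α₂, e₂, y₂', he₂, he₂0, hv₂, hy₂', h2⟩ := ih₂
    refine ⟨α₁ + α₂, e₁ * e₂, e₂ * y₁' + e₁ * y₂', mul_mem he₁ he₂, mul_ne_zero he₁0 he₂0, ?_,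
      add_mem (mul_mem he₂ hy₁') (mul_mem he₁ hy₂'), ?_⟩
    · rw [hw.map_mul i _ _ he₁0 he₂0, hv₁, hv₂, add_zero]
    · rw [map_add]
      linear_combination e₂ * h1 + e₁ * h2
  | mul y₁ y₂ h₁ h₂ ih₁ ih₂ =>
    obtain ⟨α₁, e₁, y₁', he₁, he₁0, hv₁, hy₁', h1⟩ := ih₁
    obtain ⟨α₂, e₂, y₂', he₂, he₂0, hv₂, hy₂', h2⟩ := ih₂
    refine ⟨α₁ * α₂, e₁ * e₂, e₁ * y₁ * y₂' + algebraMap L E α₂ * e₂ * y₁', mul_mem he₁ he₂,
      mul_ne_zero he₁0 he₂0, ?_,
      add_mem (mul_mem (mul_mem he₁ h₁) hy₂')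
        (mul_mem (mul_mem (Subalgebra.algebraMap_mem _ α₂) he₂) hy₁'), ?_⟩
    · rw [hw.map_mul i _ _ he₁0 he₂0, hv₁, hv₂, add_zero]
    · rw [map_mul]
      linear_combination algebraMap L E α₂ * e₂ * h1 + e₁ * y₁ * h2

/-- step 5. -/
theorem e1_step (hj : ∀ c : K, j (algebraMap K F c) = algebraMap L E (algebraMap K L c))
    (hw : ValFam L w) (i : ι) (hr : RatAt L w i) {g : F} (hg : E1Unif j w i g) (y : E)
    (hy : y ∈ e1B L j w i) (hy0 : y ≠ 0) (hpos : 0 < w i y) :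
    g ≠ 0 ∧ ∃ y' ∈ e1B L j w i, y' ≠ 0 ∧ w i y = w i (j g) + w i y' := by
  obtain ⟨α, e, y', he, he0, hve, hy', h⟩ := e1_key j hj hw i hr hg y hy
  have hgpos : e1Pos w i (j g) := by
    by_cases hg0 : g = 0
    · left; rw [hg0, map_zero]
    · exact Or.inr (hg.pos hg0)
  have h1 : e1Pos w i (e * (y - algebraMap L E α)) := by
    rw [h, mul_comm]
    exact e1Pos.mul_left hw (e1B_nn j hw i hy') hgpos
  have h2 : e1Pos w i (y - algebraMap L E α) := by
    by_cases h0 : y - algebraMap L E α = 0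
    · exact Or.inl h0
    rcases h1 with h1 | h1
    · exact absurd h1 (mul_ne_zero he0 h0)
    right
    rwa [hw.map_mul i _ _ he0 h0, hve, zero_add] at h1
  have h3 : e1Pos w i (algebraMap L E α) := by
    have := e1Pos.sub hw (Or.inr hpos : e1Pos w i y) h2
    rwa [sub_sub_cancel] at this
  have hα : α = 0 := e1_const_eq_zero hw h3
  rw [hα, map_zero, sub_zero] at h
  have hne : j g * y' ≠ 0 := by rw [← h]; exact mul_ne_zero he0 hy0
  have hjg : j g ≠ 0 := left_ne_zero_of_mul hne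
  have hy'0 : y' ≠ 0 := right_ne_zero_of_mul hne
  refine ⟨fun h0 => hjg (by rw [h0, map_zero]), y', hy', hy'0, ?_⟩
  have := congrArg (w i) h
  rwa [hw.map_mul i _ _ he0 hy0, hve, zero_add, hw.map_mul i _ _ hjg hy'0] at this

/-- divisibility on `B`. -/
theorem e1_dvd_B (hj : ∀ c : K, j (algebraMap K F c) = algebraMap L E (algebraMap K L c))
    (hw : ValFam L w) (i : ι) (hr : RatAt L w i) {g : F} (hg : E1Unif j w i g) (μ : ℤ)
    (hμ : g ≠ 0 → w i (j g) = μ) (n : ℕ) :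
    ∀ y ∈ e1B L j w i, y ≠ 0 → w i y ≤ n → μ ∣ w i y := by
  induction n with
  | zero =>
    intro y hy hy0 hn
    rcases e1B_nn j hw i hy with h | h
    · exact absurd h hy0
    have : w i y = 0 := le_antisymm (by simpa using hn) h
    rw [this]
    exact dvd_zero _
  | succ n ih =>
    intro y hy hy0 hn
    by_cases hpos : 0 < w i y
    · obtain ⟨hg0, y', hy', hy'0, he⟩ := e1_step j hj hw i hr hg y hy hy0 hpos
      have h1 := hg.pos hg0
      have h2 := ih y' hy' hy'0 (by push_cast at hn; omega)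
      rw [he, hμ hg0]
      exact dvd_add (dvd_refl _) h2
    · rcases e1B_nn j hw i hy with h | h
      · exact absurd h hy0
      have : w i y = 0 := le_antisymm (not_lt.1 hpos) h
      rw [this]
      exact dvd_zero _

omit [CharZero K] [Algebra.IsAlgebraic K L] in
/-- step 6: denominators. -/
theorem e1_denom (hw : ValFam L w) (i : ι) (z : E) (hz : z ∈ Algebra.adjoin L (Set.range j)) :
    ∃ d : F, d ≠ 0 ∧ e1NN w i (j d) ∧ j d * z ∈ e1B L j w i := by
  induction hz using Algebra.adjoin_induction with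
  | mem x hx =>
    obtain ⟨a, rfl⟩ := hx
    by_cases ha : e1NN w i (j a)
    · exact ⟨1, one_ne_zero, Or.inr (by rw [map_one, hw.map_one]), by
        rw [map_one, one_mul]; exact e1_mem_B j ha⟩
    · have ha0 : j a ≠ 0 := fun h => ha (Or.inl h)
      have ha1 : a ≠ 0 := fun h => ha0 (by rw [h, map_zero])
      have ha2 : ¬ 0 ≤ w i (j a) := fun h => ha (Or.inr h)
      refine ⟨a⁻¹, inv_ne_zero ha1, Or.inr ?_, ?_⟩
      · rw [map_inv₀, hw.map_inv i ha0]
        omega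
      · rw [map_inv₀, inv_mul_cancel₀ ha0]
        exact one_mem _
  | algebraMap c =>
    exact ⟨1, one_ne_zero, Or.inr (by rw [map_one, hw.map_one]), by
      rw [map_one, one_mul]; exact Subalgebra.algebraMap_mem _ c⟩
  | add x y _ _ hx hy =>
    obtain ⟨d₁, hd₁, hn₁, hm₁⟩ := hx
    obtain ⟨d₂, hd₂, hn₂, hm₂⟩ := hy
    refine ⟨d₁ * d₂, mul_ne_zero hd₁ hd₂, by rw [map_mul]; exact hn₁.mul hw hn₂, ?_⟩
    have : j (d₁ * d₂) * (x + y) = j d₂ * (j d₁ * x) + j d₁ * (j d₂ * y) := by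
      rw [map_mul]; ring
    rw [this]
    exact add_mem (mul_mem (e1_mem_B j hn₂) hm₁) (mul_mem (e1_mem_B j hn₁) hm₂)
  | mul x y _ _ hx hy =>
    obtain ⟨d₁, hd₁, hn₁, hm₁⟩ := hx
    obtain ⟨d₂, hd₂, hn₂, hm₂⟩ := hy
    refine ⟨d₁ * d₂, mul_ne_zero hd₁ hd₂, by rw [map_mul]; exact hn₁.mul hw hn₂, ?_⟩
    have : j (d₁ * d₂) * (x * y) = (j d₁ * x) * (j d₂ * y) := by
      rw [map_mul]; ring
    rw [this]
    exact mul_mem hm₁ hm₂

theorem e1_dvd_adjoin (hj : ∀ c : K, j (algebraMap K F c) = algebraMap L E (algebraMap K L c))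
    (hw : ValFam L w) (i : ι) (hr : RatAt L w i) {g : F} (hg : E1Unif j w i g) (μ : ℤ)
    (hμ : g ≠ 0 → w i (j g) = μ) (z : E) (hz : z ∈ Algebra.adjoin L (Set.range j)) (hz0 : z ≠ 0) :
    μ ∣ w i z := by
  obtain ⟨d, hd, hn, hm⟩ := e1_denom j hw i z hz
  have hjd : j d ≠ 0 := (map_ne_zero j).2 hd
  have key : ∀ y ∈ e1B L j w i, y ≠ 0 → μ ∣ w i y := fun y hy hy0 =>
    e1_dvd_B j hj hw i hr hg μ hμ (w i y).toNat y hy hy0 (Int.self_le_toNat _)
  have h1 := key _ hm (mul_ne_zero hjd hz0)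
  have h2 := key _ (e1_mem_B j hn) hjd
  rw [hw.map_mul i _ _ hjd hz0] at h1
  exact (dvd_add_right h2).1 h1

omit [CharZero K] [Algebra.IsAlgebraic K L] in
theorem e1_exists_unif (i : ι) : ∃ g : F, E1Unif j w i g := by
  by_cases h : ∃ n : ℕ, ∃ b : F, b ≠ 0 ∧ 0 < w i (j b) ∧ w i (j b) = n
  · classical
    obtain ⟨g, hg0, hgpos, hgn⟩ := Nat.find_spec h
    refine ⟨g, fun _ => hgpos, fun b hb hbpos => ⟨hg0, ?_⟩⟩
    have := Nat.find_min' h ⟨b, hb, hbpos, (Int.toNat_of_nonneg hbpos.le).symm⟩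
    rw [hgn]
    omega
  · refine ⟨0, fun h0 => absurd rfl h0, fun b hb hbpos => ?_⟩
    exact absurd ⟨(w i (j b)).toNat, b, hb, hbpos, (Int.toNat_of_nonneg hbpos.le).symm⟩ h

end E1AbsMain

theorem exists_val_eq_one {K L F E : Type} [Field K] [CharZero K] [Field L] [Algebra K L]
    [Algebra.IsAlgebraic K L] [Field F] [Algebra K F] [Field E] [Algebra L E] (j : F →+* E)
    (hj : ∀ c : K, j (algebraMap K F c) = algebraMap L E (algebraMap K L c))
    (hspan : ∀ z : E, ∃ y₁ y₂ : E, y₁ ∈ Algebra.adjoin L (Set.range j) ∧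
      y₂ ∈ Algebra.adjoin L (Set.range j) ∧ y₂ ≠ 0 ∧ z = y₁ / y₂)
    {ι : Type} {w : ι → E → ℤ} (hw : ValFam L w) (i : ι) (hr : RatAt L w i) :
    ∃ u : F, u ≠ 0 ∧ w i (j u) = 1 := by
  classical
  obtain ⟨g, hg⟩ := e1_exists_unif (w := w) j i
  obtain ⟨u, hu0, hu⟩ := hr.2
  obtain ⟨y₁, y₂, h₁, h₂, hy₂, rfl⟩ := hspan u
  have hy₁ : y₁ ≠ 0 := fun h => hu0 (by rw [h, zero_div])
  set μ : ℤ := if g = 0 then 0 else w i (j g) with hμdef
  have hμ : g ≠ 0 → w i (j g) = μ := fun h => by rw [hμdef, if_neg h]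
  have d₁ := e1_dvd_adjoin j hj hw i hr hg μ hμ y₁ h₁ hy₁
  have d₂ := e1_dvd_adjoin j hj hw i hr hg μ hμ y₂ h₂ hy₂
  rw [hw.map_div i hy₁ hy₂] at hu
  have d : μ ∣ 1 := by rw [← hu]; exact dvd_sub d₁ d₂
  by_cases hg0 : g = 0
  · rw [hμdef, if_pos hg0] at d
    exact absurd d (by decide)
  · refine ⟨g, hg0, ?_⟩
    have hpos := hg.pos hg0
    rw [hμ hg0] at hpos ⊢
    exact Int.eq_one_of_dvd_one hpos.le d

end Fermat.Agent.S36.LG
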