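import Fermat.Agent.S36.LG.Cases
import Fermat.Agent.S34.SS.NT
import Fermat.Agent.S34.SS.DedC
import Fermat.Agent.S34.SS.IntCl

set_option autoImplicit false
set_option linter.unusedSectionVars false

/-!
# S36 / LG / Main : LOCGEN for a three-branch context

* `reg2_of_side` : (K1) in terms of helper14's `Chart1` / `Side` (`S34/SS/Defs.lean`).
* `cusp_sep`           : two components cannot meet at a cuspidal point (VertFam version of S34 (CUSP)).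
* `inLoc_J_of_notMem`, `inMax_J_inv_of_mem` : the dichotomy `J ∈ O_n` / `J⁻¹ ∈ 𝔪_n` for `J t^r = B(t)`, `B(0)` a unit.
* `LGData` : the list of inputs;  `LGData.reg2` : `Reg2 n` at EVERY closed point;  `LGData.loc` : the local presentation `f = ε h ^ m`.
-/

noncomputable section

namespace Fermat.Agent.S36.LG

open Polynomial IntermediateField Fermat.Agent.S18 Fermat.Agent.S34

variable {R K F : Type} [CommRing R] [IsDomain R] [IsDiscreteValuationRing R] [Field K] [CharZero K]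
  [Algebra R K] [IsFractionRing R K] [Field F] [Algebra K F] {ϖ : R} {t : F}

theorem smAt_of_isLocGen {n : Ideal (CInt R K t)} [n.IsPrime] {X : CInt R K t}
    (h : IsLocGen ϖ n X) : SmAt ϖ n := by
  obtain ⟨hX, hgen⟩ := h
  refine ⟨X, InMax.of_mem hX, ?_⟩
  rintro z ⟨d, hd, w, hw, e⟩
  obtain ⟨d', hd', a, b, e'⟩ := hgen w hw
  have hd0 := lf_ne_zero hd
  have hd0' := lf_ne_zero hd'
  have e'' : (d' : F) * (w : F) = (X : F) * (a : F) + rE R K F ϖ * (b : F) :=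
    congrArg (fun y : CInt R K t => (y : F)) e'
  refine ⟨(d : F)⁻¹ * (d' : F)⁻¹ * (b : F), (d : F)⁻¹ * (d' : F)⁻¹ * (a : F),
    ((lf_inv_inLoc hd).mul (lf_inv_inLoc hd')).mul (InLoc.of_mem n b.2),
    ((lf_inv_inLoc hd).mul (lf_inv_inLoc hd')).mul (InLoc.of_mem n a.2), ?_⟩
  have e3 : z = (d : F)⁻¹ * (d' : F)⁻¹ * ((d' : F) * (w : F)) := by
    rw [← e]; field_simp
  rw [e3, e'']
  ring

section
variable {F₁ : Type} [Field F₁] [Algebra K F₁]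

/-- **(K1)** for a `Side`. -/
theorem reg2_of_side (hϖ : Irreducible ϖ) {q : ℕ} {t₁ : F₁} {V₁ : ValuationSubring F₁}
    {W : ValuationSubring F} {ιa ιb : F₁ →ₐ[K] F} (h1 : Chart1 K ϖ t₁ V₁)
    (hs : Side R q t₁ V₁ t W ιa ιb) {n : Ideal (CInt R K t)} (hn : IsClosedPt ϖ n)
    (hc : Centered W n) {G : F} (hG : PrinC n W G) : Reg2 n := by
  have hp := hn.max.isPrime
  let ιC : CInt R K t₁ →+* CInt R K t :=
    (ιa : F₁ →+* F).restrict (CInt R K t₁) (CInt R K t) hs.mapC_a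
  have hp₁ : (n.comap ιC).IsPrime := Ideal.comap_isPrime ιC n
  have hunif : unifC t₁ ϖ ∈ n.comap ιC := by
    have : ιC (unifC t₁ ϖ) = unifC t ϖ := Subtype.ext (ss_algHom_rE ιa ϖ)
    rw [Ideal.mem_comap, this]
    exact hn.mem
  obtain ⟨X₁, hX₁⟩ := h1.exists_locGen hϖ (n.comap ιC) hunif
  have hϖW : rE R K F ϖ ∈ W.nonunits := by
    rw [← ss_algHom_rE ιa ϖ, hs.comap_nonunits]
    exact h1.mem
  exact reg2_of_prinC (ιa : F₁ →+* F) hs.mapC_a (ss_algHom_rE ιa ϖ) hs.C_le hc hϖW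
    (fun c hc => hs.exists_sub_mem hϖ h1 hc) (n₁ := n.comap ιC) (fun _ => Iff.rfl)
    (smAt_of_isLocGen hX₁) hG

end

/-! ### the dichotomy -/

theorem locUnit_evR_of_mem {n : Ideal (CInt R K t)} [hp : n.IsPrime]
    (ht : (⟨t, by simpa [evR_X] using evR_mem_CInt (R := R) (K := K) t X⟩ : CInt R K t) ∈ n)
    {B : R[X]} (hB : IsUnit (B.coeff 0)) : LocUnit n (evR R K t B) := by
  apply locUnit_of_notMem n (d := ⟨evR R K t B, evR_mem_CInt t B⟩)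
  intro hmem
  obtain ⟨B', hB'⟩ := X_dvd_sub_C (p := B)
  have e : evR R K t B = t * evR R K t B' + rE R K F (B.coeff 0) := by
    have : B = X * B' + C (B.coeff 0) := by rw [← hB']; ring
    conv_lhs => rw [this]
    rw [map_add, map_mul, evR_X, evR_C]
  have h1 : (⟨rE R K F (B.coeff 0), rE_mem_CInt t _⟩ : CInt R K t) ∈ n := by
    have h2 : (⟨rE R K F (B.coeff 0), rE_mem_CInt t _⟩ : CInt R K t) =
        ⟨evR R K t B, evR_mem_CInt t B⟩ -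
          ⟨t, by simpa [evR_X] using evR_mem_CInt (R := R) (K := K) t X⟩ *
            ⟨evR R K t B', evR_mem_CInt t B'⟩ := by
      apply Subtype.ext
      change _ = evR R K t B - t * evR R K t B'
      rw [e]; ring
    rw [h2]
    exact n.sub_mem hmem (n.mul_mem_right _ ht)
  obtain ⟨u, hu⟩ := hB
  have h3 : (⟨rE R K F (B.coeff 0), rE_mem_CInt t _⟩ : CInt R K t) *
      ⟨rE R K F ((u⁻¹ : Rˣ) : R), rE_mem_CInt t _⟩ = 1 := by
    apply Subtype.ext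
    change rE R K F (B.coeff 0) * rE R K F ((u⁻¹ : Rˣ) : R) = 1
    rw [← map_mul, ← hu, Units.mul_inv, map_one]
  exact loc_one_notMem n (h3 ▸ n.mul_mem_right _ h1)

theorem inLoc_J_of_notMem {n : Ideal (CInt R K t)} [n.IsPrime]
    (ht : (⟨t, by simpa [evR_X] using evR_mem_CInt (R := R) (K := K) t X⟩ : CInt R K t) ∉ n)
    {J : F} {B : R[X]} {r : ℕ} (hJ : J * t ^ r = evR R K t B) : InLoc n J := by
  have h0 : t ≠ 0 := lf_ne_zero ht
  have e : J = evR R K t B * (t⁻¹) ^ r := by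
    rw [← hJ, mul_assoc, ← mul_pow, mul_inv_cancel₀ h0, one_pow, mul_one]
  rw [e]
  exact (InLoc.of_mem n (evR_mem_CInt t B)).mul ((lf_inv_inLoc ht).pow r)

theorem inMax_J_inv_of_mem {n : Ideal (CInt R K t)} [n.IsPrime]
    (ht : (⟨t, by simpa [evR_X] using evR_mem_CInt (R := R) (K := K) t X⟩ : CInt R K t) ∈ n)
    (ht0 : t ≠ 0) {J : F} {B : R[X]} {r : ℕ} (hr : 1 ≤ r) (hB : IsUnit (B.coeff 0))
    (hJ : J * t ^ r = evR R K t B) : InMax n J⁻¹ := by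
  obtain ⟨h0, -, h2⟩ := locUnit_evR_of_mem ht hB
  have hJ0 : J ≠ 0 := by
    rintro rfl
    rw [zero_mul] at hJ
    exact h0 hJ.symm
  have e : J⁻¹ = (evR R K t B)⁻¹ * t ^ r := by
    rw [← hJ]
    field_simp
  rw [e]
  exact InMax.mul_left h2 (inMax_pow (InMax.of_mem ht) hr)

/-! ### separation at the cusps -/

section
variable {κ : Type} {V : κ → ValuationSubring F} [Finite κ]

/-- weak integrality over `R[J]` + membership in the components through `n` ⟹ membership in `O_n`. -/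
theorem VertFam.inLoc_of_weak (hϖ : Irreducible ϖ) (hV : VertFam (K := K) ϖ t V)
    {n : Ideal (CInt R K t)} [n.IsPrime] {J g : F} (hJ : InLoc n J)
    (hg : ∃ k : ℕ, rE R K F ϖ ^ k * g ∈ CInt R K J) (hgV : ∀ k, Centered (V k) n → g ∈ V k) :
    InLoc n g := by
  obtain ⟨k, hk⟩ := hg
  exact hV.sat_loc hϖ k (InLoc.of_mem_CInt hJ hk) hgV

/-- **(CUSP)**: `s = J⁻¹ ∈ 𝔪_n`, `g = J_q / J ^ q` regular at `n`, `g ≡ 1` on `V a`, `g ≡ (J_q⁻¹) ^ k` on `V b`: the components `V a`, `V b`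
do not both pass through `n`. -/
theorem cusp_sep (hϖ : Irreducible ϖ) (hV : VertFam (K := K) ϖ t V)
    {n : Ideal (CInt R K t)} [n.IsPrime] {J Jq g : F} {q : ℕ} (hq : 1 ≤ q) (hJ : InMax n J⁻¹)
    (hg : ∃ k : ℕ, rE R K F ϖ ^ k * g ∈ CInt R K J⁻¹) (hgV : ∀ k, Centered (V k) n → g ∈ V k)
    (hmul : g * J ^ q = Jq) {a b : κ} (ha : Centered (V a) n) (hb : Centered (V b) n)
    (hga : g - 1 ∈ (V a).nonunits) (hgb : ∃ k : ℕ, 1 ≤ k ∧ g - Jq⁻¹ ^ k ∈ (V b).nonunits) :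
    False := by
  have hgl : InLoc n g := hV.inLoc_of_weak hϖ hJ.inLoc hg hgV
  have hone : InLoc n (1 : F) := InLoc.of_mem n (one_mem _)
  have h1 : InMax n (g - 1) :=
    inMax_of_mem_nonunits (fun _ hy => hV.mem_of_mem_CInt hϖ hy a) ha (hgl.sub hone) hga
  have hgu : LocUnit n g := by
    have := LocUnit.one_add h1
    rwa [add_sub_cancel] at this
  have hJq : InMax n Jq⁻¹ := by
    have e : Jq⁻¹ = g⁻¹ * J⁻¹ ^ q := by rw [← hmul, mul_inv, inv_pow]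
    rw [e]
    exact InMax.mul_left hgu.2.2 (inMax_pow hJ hq)
  obtain ⟨k, hk, hgk⟩ := hgb
  have h2 : InMax n (g - Jq⁻¹ ^ k) :=
    inMax_of_mem_nonunits (fun _ hy => hV.mem_of_mem_CInt hϖ hy b) hb
      (hgl.sub (hJq.inLoc.pow k)) hgk
  have h3 := h2.add (inMax_pow hJq hk)
  rw [sub_add_cancel] at h3
  exact not_locUnit_of_inMax n h3 hgu

/-- in the situation of `cusp_sep`, `J_q⁻¹ ∈ 𝔪_n` as soon as `V a` passes through `n`. -/
theorem cusp_next (hϖ : Irreducible ϖ) (hV : VertFam (K := K) ϖ t V)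
    {n : Ideal (CInt R K t)} [n.IsPrime] {J Jq g : F} {q : ℕ} (hq : 1 ≤ q) (hJ : InMax n J⁻¹)
    (hg : ∃ k : ℕ, rE R K F ϖ ^ k * g ∈ CInt R K J⁻¹) (hgV : ∀ k, Centered (V k) n → g ∈ V k)
    (hmul : g * J ^ q = Jq) {a : κ} (ha : Centered (V a) n) (hga : g - 1 ∈ (V a).nonunits) :
    LocUnit n g ∧ InMax n Jq⁻¹ := by
  have hgl : InLoc n g := hV.inLoc_of_weak hϖ hJ.inLoc hg hgV
  have hone : InLoc n (1 : F) := InLoc.of_mem n (one_mem _)
  have h1 : InMax n (g - 1) :=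
    inMax_of_mem_nonunits (fun _ hy => hV.mem_of_mem_CInt hϖ hy a) ha (hgl.sub hone) hga
  have hgu : LocUnit n g := by
    have := LocUnit.one_add h1
    rwa [add_sub_cancel] at this
  refine ⟨hgu, ?_⟩
  have e : Jq⁻¹ = g⁻¹ * J⁻¹ ^ q := by rw [← hmul, mul_inv, inv_pow]
  rw [e]
  exact InMax.mul_left hgu.2.2 (inMax_pow hJ hq)

end

/-! ### the three-branch context -/

/-- the chart variable as an element of the chart. -/
def tC (R K : Type) {F : Type} [CommRing R] [Field K] [Algebra R K] [Field F] [Algebra K F] (t : F) :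
    CInt R K t := ⟨t, by simpa [evR_X] using evR_mem_CInt (R := R) (K := K) t X⟩

/-- **the inputs of LOCGEN** for one chart `t` of the level `q² M`.  `E` = function field of the level `M` (good reduction), `ι`, `ι₂ : E → F` the
two extreme degeneracy maps, `V 0 = V_∞`, `V 1 = V_mid` (multiplicity `e`), `V 2 = V_0`;  `J = j`;  `g₀ = q G₂`, `g₂ = 1 / G₁`. -/
structure LGData {E : Type} [Field E] [Algebra K E] (ϖ : R) (t₁ : E) (V₁ : ValuationSubring E)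
    (t : F) (V : Fin 3 → ValuationSubring F) (ι ι₂ : E →ₐ[K] F) (e : ℕ) (J g₀ g₂ : F) : Prop where
  vert : VertFam (K := K) ϖ t V
  chart : Chart1 K ϖ t₁ V₁
  side0 : ∃ (q : ℕ) (ιb : E →ₐ[K] F), Side R q t₁ V₁ t (V 0) ι ιb
  side1 : ∃ (q : ℕ) (ιb : E →ₐ[K] F), Side R q t₁ V₁ t (V 1) ι ιb
  side2 : ∃ (q : ℕ) (ιb : E →ₐ[K] F), Side R q t₁ V₁ t (V 2) ι₂ ιb
  ram0 : ∀ z ∈ (V 0).nonunits, (rE R K F ϖ)⁻¹ * z ∈ V 0
  ram2 : ∀ z ∈ (V 2).nonunits, (rE R K F ϖ)⁻¹ * z ∈ V 2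
  J_eq : ∃ (B : R[X]) (r : ℕ), 1 ≤ r ∧ IsUnit (B.coeff 0) ∧ J * t ^ r = evR R K t B
  g₀_ne : g₀ ≠ 0
  g₀_int : ∃ k : ℕ, rE R K F ϖ ^ k * g₀ ∈ CInt R K J
  g₀_int' : ∃ k : ℕ, rE R K F ϖ ^ k * g₀⁻¹ ∈ CInt R K J
  g₀_0 : g₀ ∈ (V 0).nonunits
  g₀_unif : ∀ z ∈ (V 0).nonunits, g₀⁻¹ * z ∈ V 0
  g₀_1 : g₀ ∈ V 1 ∧ g₀⁻¹ ∈ V 1
  g₀_2 : g₀ ∈ V 2 ∧ g₀⁻¹ ∈ V 2
  g₂_ne : g₂ ≠ 0
  g₂_int : ∃ k : ℕ, rE R K F ϖ ^ k * g₂ ∈ CInt R K J
  g₂_int' : ∃ k : ℕ, rE R K F ϖ ^ k * g₂⁻¹ ∈ CInt R K J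
  g₂_2 : g₂ ∈ (V 2).nonunits
  g₂_unif : ∀ z ∈ (V 2).nonunits, g₂⁻¹ * z ∈ V 2
  g₂_0 : g₂ ∈ V 0 ∧ g₂⁻¹ ∈ V 0
  g₂_1 : g₂ ∈ V 1 ∧ g₂⁻¹ ∈ V 1
  /-- cuspidal points lie on one component (`cusp_sep`). -/
  sep : ∀ n : Ideal (CInt R K t), IsClosedPt ϖ n → InMax n J⁻¹ →
    ∀ a b, Centered (V a) n → Centered (V b) n → a = b
  e_pos : 0 < e
  ram1 : ∀ z ∈ (V 1).nonunits, (rE R K F ϖ)⁻¹ * z ^ e ∈ V 1
  /-- points which lie only on the middle component (`locUnit_of_pow_sub_mem`). -/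
  mid : ∀ n : Ideal (CInt R K t), IsClosedPt ϖ n → (∀ k, Centered (V k) n → k = 1) →
    ∃ Y : F, InLoc n Y ∧ Y ∈ (V 1).nonunits ∧ LocUnit n ((rE R K F ϖ)⁻¹ * Y ^ e)

theorem genUnit_of_weak {n : Ideal (CInt R K t)} [n.IsPrime] {J g : F} (hJ : InLoc n J)
    (hg0 : g ≠ 0) (hg : ∃ k : ℕ, rE R K F ϖ ^ k * g ∈ CInt R K J)
    (hg' : ∃ k : ℕ, rE R K F ϖ ^ k * g⁻¹ ∈ CInt R K J) : GenUnit ϖ n g := by
  obtain ⟨k, hk⟩ := hg
  obtain ⟨k', hk'⟩ := hg'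
  have hϖ : ∀ j : ℕ, InLoc n (rE R K F ϖ ^ j) := fun j =>
    InLoc.of_mem n (pow_mem (rE_mem_CInt t ϖ) j)
  refine ⟨hg0, k + k', ?_, ?_⟩
  · have e : rE R K F ϖ ^ (k + k') * g = rE R K F ϖ ^ k' * (rE R K F ϖ ^ k * g) := by
      rw [pow_add]; ring
    rw [e]
    exact (hϖ k').mul (InLoc.of_mem_CInt hJ hk)
  · have e : rE R K F ϖ ^ (k + k') * g⁻¹ = rE R K F ϖ ^ k * (rE R K F ϖ ^ k' * g⁻¹) := by
      rw [pow_add]; ring
    rw [e]
    exact (hϖ k).mul (InLoc.of_mem_CInt hJ hk')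

section
variable {E : Type} [Field E] [Algebra K E] {t₁ : E} {V₁ : ValuationSubring E}
  {V : Fin 3 → ValuationSubring F} {ι ι₂ : E →ₐ[K] F} {e : ℕ} {J g₀ g₂ : F}

theorem fin3_cases (k : Fin 3) : k = 0 ∨ k = 1 ∨ k = 2 := by
  fin_cases k <;> simp

/-- **LOCGEN**: every closed point of the chart is `Reg2`. -/
theorem LGData.reg2 (hϖ : Irreducible ϖ) (D : LGData ϖ t₁ V₁ t V ι ι₂ e J g₀ g₂)
    {n : Ideal (CInt R K t)} (hn : IsClosedPt ϖ n) : Reg2 n := by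
  have hp := hn.max.isPrime
  have hV := D.vert
  obtain ⟨q0, ιb0, hs0⟩ := D.side0
  obtain ⟨q1, ιb1, hs1⟩ := D.side1
  obtain ⟨q2, ιb2, hs2⟩ := D.side2
  obtain ⟨B, r, hr, hB, hJ⟩ := D.J_eq
  have ht0 : t ≠ 0 := by
    rintro rfl
    exact hV.trans isAlgebraic_zero
  have hmid : (∀ k, Centered (V k) n → k = 1) → Reg2 n := by
    intro honly
    obtain ⟨k, hk⟩ := hV.exists_centered hϖ hn
    have hc1 : Centered (V 1) n := honly k hk ▸ hk
    obtain ⟨Y, hY, hY', hU⟩ := D.mid n hn honly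
    exact reg2_of_side hϖ D.chart hs1 hn hc1
      (prinC_of_pow hϖ hV 1 hc1 honly D.e_pos D.ram1 hY hY' hU)
  by_cases ht : tC R K t ∈ n
  · have hJm : InMax n J⁻¹ := inMax_J_inv_of_mem ht ht0 hr hB hJ
    obtain ⟨k, hk⟩ := hV.exists_centered hϖ hn
    have honly : ∀ k', Centered (V k') n → k' = k := fun k' hk' => D.sep n hn hJm k' k hk' hk
    rcases fin3_cases k with rfl | rfl | rfl
    · exact reg2_of_side hϖ D.chart hs0 hn hk (prinC_unif hϖ hV 0 honly D.ram0)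
    · exact hmid honly
    · exact reg2_of_side hϖ D.chart hs2 hn hk (prinC_unif hϖ hV 2 honly D.ram2)
  · have hJl : InLoc n J := inLoc_J_of_notMem ht hJ
    by_cases h0 : Centered (V 0) n
    · refine reg2_of_side hϖ D.chart hs0 hn h0 (prinC_of_genUnit hϖ hV
        (genUnit_of_weak hJl D.g₀_ne D.g₀_int D.g₀_int') 0 D.g₀_0 D.g₀_unif fun k hk _ => ?_)
      rcases fin3_cases k with rfl | rfl | rfl
      · exact absurd rfl hk
      · exact D.g₀_1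
      · exact D.g₀_2
    by_cases h2 : Centered (V 2) n
    · refine reg2_of_side hϖ D.chart hs2 hn h2 (prinC_of_genUnit hϖ hV
        (genUnit_of_weak hJl D.g₂_ne D.g₂_int D.g₂_int') 2 D.g₂_2 D.g₂_unif fun k hk _ => ?_)
      rcases fin3_cases k with rfl | rfl | rfl
      · exact D.g₂_0
      · exact D.g₂_1
      · exact absurd rfl hk
    · apply hmid
      intro k hk
      rcases fin3_cases k with rfl | rfl | rfl
      · exact absurd hk h0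
      · rfl
      · exact absurd hk h2

/-- **LOC**: the local presentation at every closed point. -/
theorem LGData.loc (hϖ : Irreducible ϖ) (D : LGData ϖ t₁ V₁ t V ι ι₂ e J g₀ g₂) {I : Type}
    {w : I → F → ℤ} (hw : ValFam K w) (hint : IntAt K w t)
    (hone : ∀ i, ∃ u : F, u ≠ 0 ∧ w i u = 1) {n : Ideal (CInt R K t)} (hn : IsClosedPt ϖ n)
    {m : ℕ} (hm : 0 < m) {f : F} (hf : f ≠ 0) (hdiv : ∀ i, (m : ℤ) ∣ w i f)
    (hunit : ∀ k, f ∈ V k ∧ f⁻¹ ∈ V k) : ∃ h ε : F, h ≠ 0 ∧ LocUnit n ε ∧ f = ε * h ^ m :=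
  exists_eq_unit_mul_pow hϖ D.vert hw hint hone hn (D.reg2 hϖ hn) hm hf (fun i _ => hdiv i)
    fun k _ => hunit k

end

end Fermat.Agent.S36.LG
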