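import Fermat.Agent.S36.LG.Sat

set_option autoImplicit false
set_option linter.unusedSectionVars false

/-!
# S36 / LG / Reg : (K1)  principal centre + `C / 𝔭_W = C₁ / ϖ` + smoothness at the lower level  ⟹  `Reg2`

`ι : F₁ → F` an embedding of the function field of the lower level (good reduction), `ι C₁ ⊆ C`, `W` a component through `n` such that every
`c ∈ C` is congruent mod `𝔪_W` to some `ι y`, `y ∈ C₁` (`hNT`), `n₁ = ι⁻¹ n` is a smooth-like point (`SmAt`: `𝔪_{n₁} = (ϖ, X₁)`), and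
`𝔪_W ∩ O_n = G O_n`.  Then `𝔪_n = (G, ι X₁)` and `G` is a prime element.
-/

noncomputable section

namespace Fermat.Agent.S36.LG

open Polynomial IntermediateField Fermat.Agent.S18 Fermat.Agent.S34

variable {R K F : Type} [CommRing R] [IsDomain R] [IsDiscreteValuationRing R] [Field K] [CharZero K]
  [Algebra R K] [IsFractionRing R K] [Field F] [Algebra K F] {ϖ : R} {t : F}

/-- an element of `O_n` which lies in the maximal ideal of a component through `n` lies in `𝔪_n`. -/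
theorem inMax_of_mem_nonunits {n : Ideal (CInt R K t)} {W : ValuationSubring F}
    (hWC : ∀ y ∈ CInt R K t, y ∈ W) (hc : Centered W n) {z : F} (hz : InLoc n z)
    (hz' : z ∈ W.nonunits) : InMax n z := by
  obtain ⟨d, hd, h⟩ := hz
  exact ⟨d, hd, ⟨_, h⟩, hc _ (mul_mem_nonunits W (hWC _ d.2) hz'), rfl⟩

/-- `𝔪_W` is a prime ideal of `W`. -/
theorem mem_nonunits_or_of_mul (W : ValuationSubring F) {a b : F} (ha : a ∈ W) (_hb : b ∈ W)
    (h : a * b ∈ W.nonunits) : a ∈ W.nonunits ∨ b ∈ W.nonunits := by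
  by_cases ha' : a ∈ W.nonunits
  · exact Or.inl ha'
  · right
    have ha0 : a ≠ 0 := fun h0 => ha' (h0 ▸ zero_mem_nonunits W)
    have e : b = a⁻¹ * (a * b) := by rw [← mul_assoc, inv_mul_cancel₀ ha0, one_mul]
    rw [e]
    exact mul_mem_nonunits W (inv_mem_of_notMem_nonunits W ha ha') h

theorem PrinC.lDvd {n : Ideal (CInt R K t)} {W : ValuationSubring F} {G : F} (hG : PrinC n W G)
    {z : F} (hz : InLoc n z) (hz' : z ∈ W.nonunits) : LDvd n G z :=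
  ⟨G⁻¹ * z, hG.2.2.2 z hz hz', by rw [← mul_assoc, mul_inv_cancel₀ hG.1, one_mul]⟩

section
variable {F₁ : Type} [Field F₁] [Algebra K F₁] {t₁ : F₁} (ι : F₁ →+* F)
  (hιC : ∀ y ∈ CInt R K t₁, ι y ∈ CInt R K t)

include hιC in
theorem InLoc.map_of_comap {n : Ideal (CInt R K t)} {n₁ : Ideal (CInt R K t₁)}
    (hn₁ : ∀ y : CInt R K t₁, y ∈ n₁ ↔ (⟨ι y, hιC y y.2⟩ : CInt R K t) ∈ n) {z : F₁}
    (hz : InLoc n₁ z) : InLoc n (ι z) := by
  obtain ⟨d, hd, h⟩ := hz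
  refine ⟨⟨ι d, hιC d d.2⟩, fun h' => hd ((hn₁ d).2 h'), ?_⟩
  have := hιC _ h
  rwa [map_mul] at this

include hιC in
theorem InMax.map_of_comap {n : Ideal (CInt R K t)} {n₁ : Ideal (CInt R K t₁)}
    (hn₁ : ∀ y : CInt R K t₁, y ∈ n₁ ↔ (⟨ι y, hιC y y.2⟩ : CInt R K t) ∈ n) {z : F₁}
    (hz : InMax n₁ z) : InMax n (ι z) := by
  obtain ⟨d, hd, w, hw, h⟩ := hz
  refine ⟨⟨ι d, hιC d d.2⟩, fun h' => hd ((hn₁ d).2 h'), ⟨ι w, hιC w w.2⟩, (hn₁ w).1 hw, ?_⟩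
  change ι d * ι z = ι w
  rw [← map_mul, h]

/-- **(K1)**. -/
theorem reg2_of_prinC (hιϖ : ι (rE R K F₁ ϖ) = rE R K F ϖ)
    {n : Ideal (CInt R K t)} [n.IsPrime] {W : ValuationSubring F}
    (hWC : ∀ y ∈ CInt R K t, y ∈ W) (hc : Centered W n) (hϖW : rE R K F ϖ ∈ W.nonunits)
    (hNT : ∀ c ∈ CInt R K t, ∃ y ∈ CInt R K t₁, c - ι y ∈ W.nonunits)
    {n₁ : Ideal (CInt R K t₁)}
    (hn₁ : ∀ y : CInt R K t₁, y ∈ n₁ ↔ (⟨ι y, hιC y y.2⟩ : CInt R K t) ∈ n)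
    (hSm : SmAt ϖ n₁) {G : F} (hG : PrinC n W G) : Reg2 n := by
  obtain ⟨X₁, hX₁, hgen⟩ := hSm
  have hin : ∀ {z : F}, InLoc n z → z ∈ W := fun hz => Centered.mem_of_inLoc hWC hc hz
  refine ⟨G, ι X₁, hG.1, inMax_of_mem_nonunits hWC hc hG.2.1 hG.2.2.1,
    InMax.map_of_comap ι hιC hn₁ hX₁, ?_, ?_⟩
  · rintro a b ha hb ⟨c, hc', e⟩
    have h1 : a * b ∈ W.nonunits := by
      rw [e]; exact mul_mem_nonunits' W hG.2.2.1 (hin hc')
    rcases mem_nonunits_or_of_mul W (hin ha) (hin hb) h1 with h | h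
    · exact Or.inl (hG.lDvd ha h)
    · exact Or.inr (hG.lDvd hb h)
  · rintro z ⟨d, hd, w, hw, e⟩
    obtain ⟨y, hy, hwy⟩ := hNT w w.2
    have h1 : (w - ⟨ι y, hιC y hy⟩ : CInt R K t) ∈ n := hc _ hwy
    have h2 : (⟨ι y, hιC y hy⟩ : CInt R K t) ∈ n := by
      have := n.sub_mem hw h1
      rwa [sub_sub_cancel] at this
    have h3 : (⟨y, hy⟩ : CInt R K t₁) ∈ n₁ := (hn₁ ⟨y, hy⟩).2 h2
    have hone : (1 : CInt R K t₁) ∉ n₁ := by
      rw [hn₁]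
      have : (⟨ι ((1 : CInt R K t₁) : F₁), hιC _ (1 : CInt R K t₁).2⟩ : CInt R K t) = 1 :=
        Subtype.ext (by simp)
      rw [this]
      exact loc_one_notMem n
    obtain ⟨a, b, ha, hb, e2⟩ := hgen y ⟨1, hone, ⟨y, hy⟩, h3, by simp⟩
    obtain ⟨g1, hg1, e3⟩ := hG.lDvd (InLoc.of_mem n (w - ⟨ι y, hιC y hy⟩ : CInt R K t).2) hwy
    obtain ⟨g2, hg2, e4⟩ := hG.lDvd (InLoc.of_mem n (rE_mem_CInt t ϖ)) hϖW
    have hd0 := lf_ne_zero hd
    have hdi := lf_inv_inLoc hd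
    have ha' := InLoc.map_of_comap ι hιC hn₁ ha
    have hb' := InLoc.map_of_comap ι hιC hn₁ hb
    refine ⟨(d : F)⁻¹ * (g1 + g2 * ι a), (d : F)⁻¹ * ι b, hdi.mul (hg1.add (hg2.mul ha')),
      hdi.mul hb', ?_⟩
    have e3' : (w : F) - ι y = G * g1 := e3
    have e7 : ι y = G * g2 * ι a + ι X₁ * ι b := by
      rw [e2, map_add, map_mul, map_mul, hιϖ, ← e4]
    have e5 : (w : F) = G * g1 + (G * g2 * ι a + ι X₁ * ι b) := by
      rw [← e3', ← e7]; ring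
    have e6 : z = (d : F)⁻¹ * (w : F) := by
      rw [← e, ← mul_assoc, inv_mul_cancel₀ hd0, one_mul]
    rw [e6, e5]
    ring

end

end Fermat.Agent.S36.LG
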