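import Fermat.Agent.S36.LG.Defs
import Fermat.Agent.S34.LF

set_option autoImplicit false
set_option linter.unusedSectionVars false

/-!
# S36 / LG / Ring : the local ring `Oloc n` as a ring

`Oloc n` is the localisation of `CInt R K t` at `n`: local, noetherian, with fraction field `F`.
Dictionary: units ↔ `LocUnit`, maximal ideal ↔ `InMax`, divisibility ↔ `LDvd`.
-/

noncomputable section

namespace Fermat.Agent.S36.LG

open Polynomial IntermediateField Fermat.Agent.S18 Fermat.Agent.S34

variable {R K F : Type} [CommRing R] [IsDomain R] [IsDiscreteValuationRing R] [Field K] [CharZero K]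
  [Algebra R K] [IsFractionRing R K] [Field F] [Algebra K F]

section
variable {t : F} (n : Ideal (CInt R K t)) [n.IsPrime]

theorem cint_le_oloc : CInt R K t ≤ Oloc n := fun _ hz => InLoc.of_mem n hz

instance olocAlgebra : Algebra (CInt R K t) (Oloc n) :=
  (Subring.inclusion (cint_le_oloc n)).toAlgebra

theorem coe_algebraMap_oloc (c : CInt R K t) : ((algebraMap (CInt R K t) (Oloc n) c : Oloc n) : F) = c :=
  rfl

theorem isUnit_oloc_iff (z : Oloc n) : IsUnit z ↔ LocUnit n (z : F) := by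
  constructor
  · rintro ⟨u, rfl⟩
    have h1 : ((u : Oloc n) : F) * ((u⁻¹ : (Oloc n)ˣ) : Oloc n) = 1 := by
      rw [← Subring.coe_mul, Units.mul_inv, Subring.coe_one]
    have h0 : ((u : Oloc n) : F) ≠ 0 := left_ne_zero_of_mul_eq_one h1
    refine ⟨h0, (u : Oloc n).2, ?_⟩
    rw [← eq_inv_of_mul_eq_one_right h1]
    exact ((u⁻¹ : (Oloc n)ˣ) : Oloc n).2
  · rintro ⟨h0, -, h2⟩
    refine ⟨⟨z, ⟨_, h2⟩, ?_, ?_⟩, rfl⟩
    · exact Subtype.ext (by simp [h0])
    · exact Subtype.ext (by simp [h0])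

theorem locUnit_of_notMem {d : CInt R K t} (hd : d ∉ n) : LocUnit n (d : F) :=
  ⟨lf_ne_zero hd, InLoc.of_mem n d.2, lf_inv_inLoc hd⟩

instance oloc_isLocalization : IsLocalization.AtPrime (Oloc n) n where
  map_units y := (isUnit_oloc_iff n _).2 (locUnit_of_notMem n y.2)
  surj z := by
    obtain ⟨d, hd, h⟩ := z.2
    exact ⟨(⟨_, h⟩, ⟨d, hd⟩), Subtype.ext (by
      rw [Subring.coe_mul, coe_algebraMap_oloc, coe_algebraMap_oloc]; exact mul_comm _ _)⟩
  exists_of_eq {x y} h := by
    refine ⟨1, ?_⟩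
    have : (x : F) = y := congrArg (fun z : Oloc n => (z : F)) h
    rw [Subtype.ext this]

instance oloc_isLocalRing : IsLocalRing (Oloc n) := IsLocalization.AtPrime.isLocalRing (Oloc n) n

theorem not_locUnit_of_inMax {z : F} (hz : InMax n z) : ¬ LocUnit n z := by
  rintro ⟨h0, -, h2⟩
  have := InMax.mul_left h2 hz
  rw [inv_mul_cancel₀ h0] at this
  exact not_inMax_one this

theorem mem_maximalIdeal_oloc_iff (z : Oloc n) :
    z ∈ IsLocalRing.maximalIdeal (Oloc n) ↔ InMax n (z : F) := by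
  rw [IsLocalRing.mem_maximalIdeal, mem_nonunits_iff, isUnit_oloc_iff]
  constructor
  · intro h
    by_contra h'
    exact h (LocUnit.of_not_inMax z.2 h')
  · exact not_locUnit_of_inMax n

theorem dvd_oloc_iff (a b : Oloc n) : a ∣ b ↔ LDvd n (a : F) (b : F) := by
  constructor
  · rintro ⟨c, rfl⟩
    exact ⟨c, c.2, by rw [Subring.coe_mul]⟩
  · rintro ⟨c, hc, h⟩
    exact ⟨⟨c, hc⟩, Subtype.ext (by rw [Subring.coe_mul]; exact h)⟩

theorem oloc_isNoetherianRing (ht : Transcendental K t) (hfin : FiniteDimensional K⟮t⟯ F) :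
    IsNoetherianRing (Oloc n) := by
  have := lf_noeth (R := R) ht hfin
  exact IsLocalization.isNoetherianRing n.primeCompl (Oloc n) inferInstance

theorem oloc_isFractionRing (ht : Transcendental K t) (hfin : FiniteDimensional K⟮t⟯ F) :
    IsFractionRing (Oloc n) F where
  map_units y := by
    have : ((y : Oloc n) : F) ≠ 0 := fun h => nonZeroDivisors.ne_zero y.2 (Subtype.ext h)
    exact isUnit_iff_ne_zero.2 this
  surj z := by
    obtain ⟨b, hb, h⟩ := exists_mul_mem_CInt (R := R) ht hfin z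
    refine ⟨(⟨_, InLoc.of_mem n h⟩, ⟨⟨b, InLoc.of_mem n b.2⟩, ?_⟩), ?_⟩
    · rw [mem_nonZeroDivisors_iff_ne_zero]
      intro h0
      exact hb (Subtype.ext (congrArg (fun z : Oloc n => (z : F)) h0))
    · exact mul_comm _ _
  exists_of_eq {x y} h := ⟨1, by rw [Subtype.ext (h : (x : F) = y)]⟩

theorem mem_CInt_of_isIntegral {z : F} (hz : IsIntegral (CInt R K t) z) : z ∈ CInt R K t := by
  let _ := (evR R K t).toAlgebra
  let e : CInt R K t →+* integralClosure R[X] F :=
    { toFun := fun y => ⟨y.1, y.2⟩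
      map_one' := rfl
      map_zero' := rfl
      map_mul' := fun _ _ => rfl
      map_add' := fun _ _ => rfl }
  have h1 : IsIntegral (integralClosure R[X] F) z := by
    obtain ⟨P, hP, h⟩ := hz
    refine ⟨P.map e, hP.map e, ?_⟩
    rw [eval₂_map]
    exact h
  have h2 : IsIntegral R[X] z := isIntegral_trans z h1
  exact h2

/-- `Oloc n` is integrally closed in `F`. -/
theorem inLoc_of_isIntegral {z : F} (hz : IsIntegral (Oloc n) z) : InLoc n z := by
  have : IsScalarTower (CInt R K t) (Oloc n) F := IsScalarTower.of_algebraMap_eq (fun _ => rfl)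
  obtain ⟨m, hm⟩ := IsIntegral.exists_multiple_integral_of_isLocalization n.primeCompl z hz
  exact ⟨m, m.2, mem_CInt_of_isIntegral hm⟩

end

end Fermat.Agent.S36.LG
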