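import Fermat.Agent.S36.LG.Reg
import Fermat.Agent.S36.P.Factorial

set_option autoImplicit false
set_option linter.unusedSectionVars false

/-!
# S36 / LG / UFD : `Reg2 n` implies that `Oloc n` is factorial, and every prime `≠ 𝔪_n` is principal
-/

noncomputable section

namespace Fermat.Agent.S36.LG

open Polynomial IntermediateField Fermat.Agent.S18 Fermat.Agent.S34

section abs

variable {O : Type*} [CommRing O] [IsDomain O] [IsNoetherianRing O] [IsLocalRing O]

open IsLocalRing in
theorem pir_quotient_of_gen (G S : O) (hG : Prime G) (hS : S ∈ maximalIdeal O)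
    (hgen : ∀ z ∈ maximalIdeal O, ∃ a b, z = G * a + S * b) :
    IsPrincipalIdealRing (O ⧸ Ideal.span {G}) := by
  have hp : (Ideal.span {G}).IsPrime := (Ideal.span_singleton_prime hG.ne_zero).2 hG
  have : IsDomain (O ⧸ Ideal.span {G}) := Ideal.Quotient.isDomain _
  have hl := IsLocalRing.of_surjective' (Ideal.Quotient.mk (Ideal.span {G}))
    Ideal.Quotient.mk_surjective
  have hh := IsLocalHom.of_surjective (Ideal.Quotient.mk (Ideal.span {G}))
    Ideal.Quotient.mk_surjective
  have key : maximalIdeal (O ⧸ Ideal.span {G}) =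
      Ideal.span {Ideal.Quotient.mk (Ideal.span {G}) S} := ?_
  · have hprin : (maximalIdeal (O ⧸ Ideal.span {G})).IsPrincipal := ⟨_, key⟩
    exact ((tfae_of_isNoetherianRing_of_isLocalRing_of_isDomain (R := O ⧸ Ideal.span {G})).out 4
      0).1 hprin
  apply le_antisymm
  · intro z hz
    obtain ⟨z, rfl⟩ := Ideal.Quotient.mk_surjective z
    have hz' : z ∈ maximalIdeal O := by
      rw [mem_maximalIdeal, mem_nonunits_iff] at hz ⊢
      exact fun h => hz (h.map _)
    obtain ⟨a, b, rfl⟩ := hgen z hz'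
    rw [Ideal.mem_span_singleton]
    refine ⟨Ideal.Quotient.mk _ b, ?_⟩
    rw [map_add, map_mul, map_mul]
    have : Ideal.Quotient.mk (Ideal.span {G}) G = 0 :=
      Ideal.Quotient.eq_zero_iff_mem.2 (Ideal.mem_span_singleton_self G)
    rw [this, zero_mul, zero_add]
  · rw [Ideal.span_singleton_le_iff_mem, mem_maximalIdeal, mem_nonunits_iff]
    intro h
    rw [mem_maximalIdeal, mem_nonunits_iff] at hS
    exact hS (hh.map_nonunit _ h)

theorem span_eq_of_prime_mem_span {f g : O} (hf : ¬ IsUnit f) (hg : Prime g)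
    (h : g ∈ Ideal.span {f}) : Ideal.span {f} = Ideal.span {g} := by
  obtain ⟨c, rfl⟩ := Ideal.mem_span_singleton.1 h
  rcases hg.irreducible.isUnit_or_isUnit rfl with h1 | h1
  · exact absurd h1 hf
  · exact (Ideal.span_singleton_mul_right_unit h1 f).symm

open IsLocalRing in
/-- every prime ideal `≠ 𝔪` which contains a prime element is generated by it. -/
theorem eq_span_of_prime_mem (G : O) (hG : Prime G)
    (hpir : IsPrincipalIdealRing (O ⧸ Ideal.span {G})) (Q : Ideal O) [hQ : Q.IsPrime]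
    (hQm : Q ≠ maximalIdeal O) (g : O) (hg : Prime g) (hgQ : g ∈ Q) : Q = Ideal.span {g} := by
  have hQ0 : Q ≠ ⊥ := fun h => hg.ne_zero (by rw [h] at hgQ; exact hgQ)
  by_cases hGQ : G ∈ Q
  · have hp : (Ideal.span {G}).IsPrime := (Ideal.span_singleton_prime hG.ne_zero).2 hG
    have : IsDomain (O ⧸ Ideal.span {G}) := Ideal.Quotient.isDomain _
    have hker : RingHom.ker (Ideal.Quotient.mk (Ideal.span {G})) ≤ Q := by
      rw [Ideal.mk_ker, Ideal.span_singleton_le_iff_mem]; exact hGQ
    have hQ' : (Q.map (Ideal.Quotient.mk (Ideal.span {G}))).IsPrime :=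
      Ideal.map_isPrime_of_surjective Ideal.Quotient.mk_surjective hker
    have hcomap : (Q.map (Ideal.Quotient.mk (Ideal.span {G}))).comap
        (Ideal.Quotient.mk (Ideal.span {G})) = Q := by
      rw [Ideal.comap_map_of_surjective _ Ideal.Quotient.mk_surjective, ← RingHom.ker_eq_comap_bot]
      exact sup_eq_left.2 hker
    by_cases hbot : Q.map (Ideal.Quotient.mk (Ideal.span {G})) = ⊥
    · have hQG : Q = Ideal.span {G} := by
        rw [← hcomap, hbot, ← RingHom.ker_eq_comap_bot, Ideal.mk_ker]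
      rw [hQG]
      exact span_eq_of_prime_mem_span hG.not_isUnit hg (hQG ▸ hgQ)
    · exfalso
      have hmax := hQ'.isMaximal hbot
      have : Q.IsMaximal := by
        rw [← hcomap]
        exact Ideal.comap_isMaximal_of_surjective _ Ideal.Quotient.mk_surjective
      exact hQm (eq_maximalIdeal this)
  · have hp := S36.isPrincipal_of_notMem G hG.not_isUnit hpir Q hGQ
    have hgen : Q = Ideal.span {hp.generator} := (Ideal.span_singleton_generator Q).symm
    have hnu : ¬ IsUnit hp.generator := fun h => hQ.ne_top (by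
      rw [hgen]; exact Ideal.span_singleton_eq_top.2 h)
    rw [hgen]
    exact span_eq_of_prime_mem_span hnu hg (hgen ▸ hgQ)

end abs

variable {R K F : Type} [CommRing R] [IsDomain R] [IsDiscreteValuationRing R] [Field K] [CharZero K]
  [Algebra R K] [IsFractionRing R K] [Field F] [Algebra K F] {ϖ : R} {t : F}

/-- ring-theoretic form of `Reg2`. -/
theorem Reg2.exists_prime (ht : Transcendental K t) (hfin : FiniteDimensional K⟮t⟯ F)
    {n : Ideal (CInt R K t)} [n.IsPrime] (h : Reg2 n) :
    ∃ G : Oloc n, Prime G ∧ IsPrincipalIdealRing (Oloc n ⧸ Ideal.span {G}) := by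
  have := oloc_isNoetherianRing n ht hfin
  obtain ⟨G, S, hG0, hG, hS, hpr, hgen⟩ := h
  have hGp : Prime (⟨G, hG.inLoc⟩ : Oloc n) := by
    refine ⟨fun h => hG0 (congrArg (fun z : Oloc n => (z : F)) h), ?_, fun a b hab => ?_⟩
    · rw [isUnit_oloc_iff]; exact not_locUnit_of_inMax n hG
    · rw [dvd_oloc_iff, dvd_oloc_iff]
      rw [dvd_oloc_iff, Subring.coe_mul] at hab
      exact hpr a b a.2 b.2 hab
  refine ⟨⟨G, hG.inLoc⟩, hGp, pir_quotient_of_gen _ ⟨S, hS.inLoc⟩ hGp
    ((mem_maximalIdeal_oloc_iff n _).2 hS) fun z hz => ?_⟩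
  obtain ⟨a, b, ha, hb, e⟩ := hgen z ((mem_maximalIdeal_oloc_iff n _).1 hz)
  exact ⟨⟨a, ha⟩, ⟨b, hb⟩, Subtype.ext e⟩

/-- **(UFD)**. -/
theorem Reg2.ufd (ht : Transcendental K t) (hfin : FiniteDimensional K⟮t⟯ F)
    {n : Ideal (CInt R K t)} [n.IsPrime] (h : Reg2 n) : UniqueFactorizationMonoid (Oloc n) := by
  have := oloc_isNoetherianRing n ht hfin
  obtain ⟨G, hG, hpir⟩ := h.exists_prime ht hfin
  exact S36.ufd_of_quotient_pid G hG hpir

end Fermat.Agent.S36.LG
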